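import Fermat.Agent.ES.Coh.Lattice

/-!
# ES / Coh: coordinates on `Hom_{par,ell}(Γ₀(N), ·)` and the integral Hecke matrices
-/

set_option autoImplicit false
set_option linter.unusedSectionVars false

open UpperHalfPlane ModularForm CongruenceSubgroup Filter Topology Matrix.SpecialLinearGroup
open scoped MatrixGroups ModularForm Manifold

namespace Fermat.Agent.ES.Coh

open Fermat.Agent.S21 ModularCurve ModularCurve.Period Fermat.Agent.S16.Shimura

variable (N : ℕ) [NeZero N]

/-- the rank of the lattice `Hom_{par,ell}(Γ₀(N), ℤ)`. -/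
noncomputable def rk : ℕ := (exists_dual_family N).choose

/-- a basis of the lattice `Hom_{par,ell}(Γ₀(N), ℤ)`. -/
noncomputable def lam : Fin (rk N) → Additive (Gamma0 N) →+ ℤ :=
  (exists_dual_family N).choose_spec.choose

/-- group elements dual to `lam`. -/
noncomputable def gam : Fin (rk N) → Gamma0 N :=
  (exists_dual_family N).choose_spec.choose_spec.choose

theorem lam_isParEll (i : Fin (rk N)) : IsParEll N (lam N i) :=
  (exists_dual_family N).choose_spec.choose_spec.choose_spec.1 i

theorem lam_gam (i j : Fin (rk N)) :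
    lam N i (Additive.ofMul (gam N j)) = if i = j then 1 else 0 :=
  (exists_dual_family N).choose_spec.choose_spec.choose_spec.2.1 i j

theorem expand {A : Type} [AddCommGroup A] [IsAddTorsionFree A] (φ : Additive (Gamma0 N) →+ A)
    (hφ : IsParEll N φ) (g : Additive (Gamma0 N)) :
    φ g = ∑ i, lam N i g • φ (Additive.ofMul (gam N i)) :=
  (exists_dual_family N).choose_spec.choose_spec.choose_spec.2.2 A φ hφ g

/-- the character `∑ cᵢ λᵢ` with coefficients in a ring `K`. -/
noncomputable def comb (K : Type) [CommRing K] (c : Fin (rk N) → K) : Additive (Gamma0 N) →+ K :=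
  ∑ i, (AddMonoidHom.mulLeft (c i)).comp ((Int.castAddHom K).comp (lam N i))

theorem comb_apply {K : Type} [CommRing K] (c : Fin (rk N) → K) (g : Additive (Gamma0 N)) :
    comb N K c g = ∑ i, c i * (lam N i g : K) := by
  simp [comb]

theorem comb_gam {K : Type} [CommRing K] (c : Fin (rk N) → K) (j : Fin (rk N)) :
    comb N K c (Additive.ofMul (gam N j)) = c j := by
  classical
  rw [comb_apply]
  simp [lam_gam]

theorem comb_injective {K : Type} [CommRing K] : Function.Injective (comb N K) := by
  intro c c' h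
  funext j
  rw [← comb_gam N c j, h, comb_gam]

theorem isParEll_comb {K : Type} [CommRing K] (c : Fin (rk N) → K) : IsParEll N (comb N K c) := by
  constructor
  · intro γ hγ
    rw [comb_apply]
    exact Finset.sum_eq_zero fun i _ => by rw [(lam_isParEll N i).1 γ hγ]; simp
  · intro γ hγ
    rw [comb_apply]
    exact Finset.sum_eq_zero fun i _ => by rw [(lam_isParEll N i).2 γ hγ]; simp

theorem comb_smul {K : Type} [CommRing K] (a : K) (c : Fin (rk N) → K) :
    comb N K (a • c) = a • comb N K c := by
  refine AddMonoidHom.ext fun g => ?_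
  simp [comb_apply, Finset.mul_sum, mul_assoc]

/-- characters with values in a torsion free ring are combinations of the `lam i`. -/
theorem eq_comb {K : Type} [CommRing K] [IsAddTorsionFree K] (φ : Additive (Gamma0 N) →+ K)
    (hφ : IsParEll N φ) : φ = comb N K fun i => φ (Additive.ofMul (gam N i)) := by
  refine AddMonoidHom.ext fun g => ?_
  rw [expand N φ hφ g, comb_apply]
  exact Finset.sum_congr rfl fun i _ => by rw [zsmul_eq_mul, mul_comm]

section T

variable (ℓ : ℕ) [Fact ℓ.Prime] (hℓN : ¬ ℓ ∣ N)

/-- the integral matrix of `T_ℓ` : `T_ℓ λᵢ = ∑ⱼ Mᵢⱼ λⱼ`. -/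
noncomputable def heckeMat : Matrix (Fin (rk N)) (Fin (rk N)) ℤ :=
  Matrix.of fun i j => heckeHom N ℓ hℓN ℤ (lam N i) (Additive.ofMul (gam N j))

theorem heckeHom_lam (i : Fin (rk N)) (g : Additive (Gamma0 N)) :
    heckeHom N ℓ hℓN ℤ (lam N i) g = ∑ j, heckeMat N ℓ hℓN i j * lam N j g := by
  rw [expand N _ (IsParEll.heckeHom N ℓ hℓN (lam_isParEll N i)) g]
  exact Finset.sum_congr rfl fun j _ => by rw [smul_eq_mul, mul_comm]; rfl

theorem heckeHom_comb {K : Type} [CommRing K] (c : Fin (rk N) → K) :
    heckeHom N ℓ hℓN K (comb N K c)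
      = comb N K fun j => ∑ i, c i * (heckeMat N ℓ hℓN i j : K) := by
  refine AddMonoidHom.ext fun g => ?_
  rw [comb, map_sum, AddMonoidHom.finsetSum_apply, comb_apply]
  simp only [heckeHom_comp, AddMonoidHom.comp_apply, heckeHom_lam, AddMonoidHom.coe_mulLeft,
    Int.coe_castAddHom, Int.cast_sum, Int.cast_mul, Finset.mul_sum, Finset.sum_mul]
  rw [Finset.sum_comm]
  exact Finset.sum_congr rfl fun j _ => Finset.sum_congr rfl fun i _ => by ring

end T

end Fermat.Agent.ES.Coh
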