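import Fermat.Agent.ES.Coh.Defs
import Fermat.Agent.S16.Shimura.CountModN
import Fermat.Agent.S20.Defs

/-!
# ES / Coh, task `ES/Coh-Count`: counting `Hom_{par,ell}(Γ₀(N), ℤ/n)`

GOAL (`card_isParEll_mul_le`): with `X = SL₂(ℤ)/Γ₀(N)`, `o_g` = number of `⟨g⟩`-orbits on `X`,
`|Hom_{par,ell}(Γ₀(N), ℤ/n)| · n^{|X| + o_S + o_{ST} + o_T} ≤ n^{2|X| + 2}`.

PROOF SKETCH (generalises `S16/Shimura/CountModN`, reuse its `sumMap`, `OQ`, `card_ker_mul`, `ccK`,
`ccK_mul`, `ker_auxK`, `x0`; `K = ZMod n`, `U = Umat = S * T`).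
* For `g : SL(2,ℤ)` let `Og x : Finset X` be the `zpowers g`-orbit of `x` and
  `V_g = ker (sumMap Og K)`; `|V_g| * n ^ o_g = n ^ |X|` (`card_ker_mul`), `OQ Og ≃ orbitRel.Quotient`.
* orbit sums: `∑_{y ∈ Og x} ccK φ v g y = ccK φ v (g ^ r) x = φ (kap (g ^ r) x)`, `r` = period of `x`
  (`ccK_mul`), and `kap (g ^ r) x = rep⁻¹ g ^ r rep` is of finite order (`g = S, U`) resp. parabolic
  (`g = T`).  So for `IsParEll φ`: `a := ccK φ v S ∈ V_S`, `b := ccK φ v U ∈ V_U`, `ccK φ v T ∈ V_T`,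
  and `ccK φ v T x = b x - a (T • x)`, hence `δ (a, b) := sumMap OT (b - a) = 0`.
* connectivity: for all `x` there is `s ∈ V_S × V_U` with `s.1 + s.2 = e_x - e_x0`
  (the `g` such that `∀ x, e_{g x} - e_x ∈ V_S ⊔ V_U` form a subgroup containing `S` and `U`).
  Choose `s_q` for every `T`-orbit `q`.
* the additive map `(φ, v, w) ↦ (-a + ∑ w_q (s_q).1, b + ∑ w_q (s_q).2, v x0, ∑ w_q)` from
  `Hom_{par,ell} × K^X × K^{X/T}` to `V_S × V_U × K × K` is injective (apply `δ`, then `ker_auxK`).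
-/

set_option autoImplicit false
set_option linter.unusedSectionVars false

open UpperHalfPlane ModularForm CongruenceSubgroup Filter Topology Matrix.SpecialLinearGroup
open scoped MatrixGroups ModularForm Manifold

namespace Fermat.Agent.ES.Coh

open Fermat.Agent.S21 ModularCurve ModularCurve.Period Fermat.Agent.S16.Shimura
open Fermat.Agent.S20 (orbitCount)

namespace Count

open GroupBound CountModN

variable (Γ : Subgroup SL(2, ℤ)) [Γ.FiniteIndex]

/-- the `⟨g⟩`-orbit of `x` as a finset -/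
noncomputable def Og (g : SL(2, ℤ)) (x : X Γ) : Finset (X Γ) :=
  open Classical in Finset.univ.filter (fun y => y ∈ MulAction.orbit (Subgroup.zpowers g) x)

theorem mem_Og {g : SL(2, ℤ)} {x y : X Γ} :
    y ∈ Og Γ g x ↔ y ∈ MulAction.orbit (Subgroup.zpowers g) x := by
  simp [Og]

theorem Og_self (g : SL(2, ℤ)) (x : X Γ) : x ∈ Og Γ g x :=
  (mem_Og Γ).2 (MulAction.mem_orbit_self x)

theorem Og_eq (g : SL(2, ℤ)) (x y : X Γ) (h : y ∈ Og Γ g x) : Og Γ g y = Og Γ g x := by
  ext z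
  rw [mem_Og, mem_Og, MulAction.orbit_eq_iff.2 ((mem_Og Γ).1 h)]

theorem smul_mem_Og_iff (g : SL(2, ℤ)) (x y : X Γ) : g • y ∈ Og Γ g x ↔ y ∈ Og Γ g x := by
  rw [mem_Og, mem_Og, ← MulAction.orbit_eq_iff, ← MulAction.orbit_eq_iff]
  have : MulAction.orbit (Subgroup.zpowers g) (g • y) = MulAction.orbit (Subgroup.zpowers g) y :=
    MulAction.orbit_smul (⟨g, Subgroup.mem_zpowers g⟩ : Subgroup.zpowers g) y
  rw [this]

theorem pow_smul_mem_Og_iff (g : SL(2, ℤ)) (x y : X Γ) (i : ℕ) :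
    g ^ i • y ∈ Og Γ g x ↔ y ∈ Og Γ g x := by
  induction i with
  | zero => simp
  | succ i ih => rw [pow_succ', mul_smul, smul_mem_Og_iff, ih]

theorem card_OQ (g : SL(2, ℤ)) : Fintype.card (OQ (Og Γ g)) = orbitCount Γ g := by
  rw [orbitCount, ← Nat.card_eq_fintype_card]
  symm
  refine Nat.card_congr (Equiv.ofBijective
    (Quotient.lift (fun x => (⟨Og Γ g x, x, rfl⟩ : OQ (Og Γ g))) ?_) ⟨?_, ?_⟩)
  · intro x y h
    exact Subtype.ext (Og_eq Γ g y x ((mem_Og Γ).2 (MulAction.orbitRel_apply.1 h)))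
  · intro a b
    induction a using Quotient.inductionOn with
    | h x =>
      induction b using Quotient.inductionOn with
      | h y =>
        intro h
        have h' : Og Γ g x = Og Γ g y := congrArg Subtype.val h
        apply Quotient.sound
        apply MulAction.orbitRel_apply.2
        rw [← mem_Og, ← h']
        exact Og_self Γ g x
  · rintro ⟨q, x, hx⟩
    exact ⟨Quotient.mk _ x, Subtype.ext hx⟩

theorem toPerm_pow_apply (g : SL(2, ℤ)) (r : ℕ) (z : X Γ) :
    ((MulAction.toPerm g : Equiv.Perm (X Γ)) ^ r) z = g ^ r • z := by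
  have : (MulAction.toPerm g : Equiv.Perm (X Γ)) ^ r = MulAction.toPerm (g ^ r) :=
    (map_pow (MulAction.toPermHom SL(2, ℤ) (X Γ)) g r).symm
  rw [this]
  rfl

theorem sum_Og_eq_zero {A : Type} [AddCommMonoid A] (g : SL(2, ℤ)) (f : X Γ → A)
    (h : ∀ (z : X Γ) (r : ℕ), 0 < r → g ^ r • z = z →
      ∑ i ∈ Finset.range r, f (g ^ i • z) = 0)
    (x : X Γ) : ∑ y ∈ Og Γ g x, f y = 0 := by
  classical
  have key := sum_eq_zero_of_orbit_sums (MulAction.toPerm g : Equiv.Perm (X Γ))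
    (fun y => if y ∈ Og Γ g x then f y else 0) (by
      intro z r hr hz
      rw [toPerm_pow_apply] at hz
      simp only [toPerm_pow_apply, pow_smul_mem_Og_iff]
      by_cases hzx : z ∈ Og Γ g x
      · simp only [hzx, if_true]
        exact h z r hr hz
      · simp only [hzx, if_false]
        exact Finset.sum_const_zero)
  rwa [Finset.sum_ite_mem, Finset.univ_inter] at key

theorem sum_Og_smul {A : Type} [AddCommMonoid A] (g : SL(2, ℤ)) (f : X Γ → A) (x : X Γ) :
    ∑ y ∈ Og Γ g x, f (g • y) = ∑ y ∈ Og Γ g x, f y :=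
  Finset.sum_equiv (MulAction.toPerm g) (fun y => (smul_mem_Og_iff Γ g x y).symm)
    (fun _ _ => rfl)

variable {K : Type} [CommRing K]

theorem ccK_pow (φ : Additive Γ →+ K) (v : X Γ → K) (g : SL(2, ℤ)) (r : ℕ) (x : X Γ) :
    ccK Γ φ v (g ^ r) x = ∑ i ∈ Finset.range r, ccK Γ φ v g (g ^ i • x) := by
  induction r with
  | zero => simp [ccK_one]
  | succ r ih => rw [pow_succ', ccK_mul, ih, Finset.sum_range_succ, add_comm]

theorem ccK_mem_of_pow (φ : Additive Γ →+ K)
    (hφ : ∀ γ : Γ, γ ^ 12 = 1 → φ (Additive.ofMul γ) = 0) (v : X Γ → K) (g : SL(2, ℤ))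
    (hg : g ^ 12 = 1) : ccK Γ φ v g ∈ LinearMap.ker (sumMap (Og Γ g) K) := by
  rw [mem_ker_sumMap]
  refine sum_Og_eq_zero Γ g _ fun z r _ hz => ?_
  rw [← ccK_pow]
  simp only [ccK, hz]
  rw [hφ _ (kap_pow_eq_one Γ (g ^ r) z hz 12 (by rw [← pow_mul, mul_comm, pow_mul, hg, one_pow]))]
  ring

theorem trace_kap (g : SL(2, ℤ)) (x : X Γ) (h : g • x = x) :
    ((kap Γ g x : SL(2, ℤ)) : Matrix (Fin 2) (Fin 2) ℤ).trace
      = (g : Matrix (Fin 2) (Fin 2) ℤ).trace := by
  have h1 : ((kap Γ g x : Γ) : SL(2, ℤ)) = (Quotient.out x)⁻¹ * g * Quotient.out x := by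
    simp only [kap, h]
  rw [h1, Matrix.SpecialLinearGroup.coe_mul, Matrix.trace_mul_comm,
    ← Matrix.SpecialLinearGroup.coe_mul, ← mul_assoc, mul_inv_cancel, one_mul]

theorem ccK_T_mem (φ : Additive Γ →+ K) (hφ : IsParabolicHom Γ φ) (v : X Γ → K) :
    ccK Γ φ v ModularGroup.T ∈ LinearMap.ker (sumMap (Og Γ ModularGroup.T) K) := by
  rw [mem_ker_sumMap]
  refine sum_Og_eq_zero Γ _ _ fun z r _ hz => ?_
  rw [← ccK_pow]
  simp only [ccK, hz]
  rw [hφ _ (by
    rw [trace_kap Γ _ z hz, Matrix.SpecialLinearGroup.coe_pow]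
    refine trace_pow_sq _ (ModularGroup.T).det_coe ?_ r
    simp [ModularGroup.coe_T, Matrix.trace_fin_two])]
  ring

theorem shift_mem (g : SL(2, ℤ)) (f : X Γ → K) :
    (fun y => f (g • y) - f y) ∈ LinearMap.ker (sumMap (Og Γ g) K) := by
  rw [mem_ker_sumMap]
  intro x
  rw [Finset.sum_sub_distrib, sum_Og_smul, sub_self]

theorem neg_add_mem (φ : Additive Γ →+ K) (hφ : IsParabolicHom Γ φ) (v : X Γ → K) :
    - ccK Γ φ v ModularGroup.S + ccK Γ φ v Umat
      ∈ LinearMap.ker (sumMap (Og Γ ModularGroup.T) K) := by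
  have : - ccK Γ φ v ModularGroup.S + ccK Γ φ v Umat = ccK Γ φ v ModularGroup.T
      + fun y => ccK Γ φ v ModularGroup.S (ModularGroup.T • y) - ccK Γ φ v ModularGroup.S y := by
    funext y
    simp only [Pi.add_apply, Pi.neg_apply, Umat, ccK_mul]
    ring
  rw [this]
  exact Submodule.add_mem _ (ccK_T_mem Γ φ hφ v) (shift_mem Γ _ _)

theorem single_sub_mem (g : SL(2, ℤ)) (x : X Γ) :
    (Pi.single (g • x) (1 : K) - Pi.single x (1 : K) : X Γ → K)
      ∈ LinearMap.ker (sumMap (Og Γ g) K) := by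
  rw [mem_ker_sumMap]
  intro z
  simp only [Pi.sub_apply, Finset.sum_sub_distrib, Finset.sum_pi_single', smul_mem_Og_iff,
    sub_self]

variable (K)

/-- the subgroup of `g` with `e_{g x} - e_x ∈ V_S + V_U` for all `x`. -/
def connSub : Subgroup SL(2, ℤ) where
  carrier := {g | ∀ x : X Γ, (Pi.single (g • x) (1 : K) - Pi.single x (1 : K) : X Γ → K)
    ∈ LinearMap.ker (sumMap (Og Γ ModularGroup.S) K) ⊔ LinearMap.ker (sumMap (Og Γ Umat) K)}
  one_mem' := by
    intro x
    simp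
  mul_mem' := by
    intro g h hg hh x
    have := Submodule.add_mem _ (hg (h • x)) (hh x)
    rwa [sub_add_sub_cancel, ← mul_smul] at this
  inv_mem' := by
    intro g hg x
    have := Submodule.neg_mem _ (hg (g⁻¹ • x))
    rwa [neg_sub, smul_inv_smul] at this

theorem connSub_eq_top : connSub Γ K = ⊤ := by
  have hSm : ModularGroup.S ∈ connSub Γ K := fun x =>
    Submodule.mem_sup_left (single_sub_mem Γ _ x)
  have hUm : Umat ∈ connSub Γ K := fun x =>
    Submodule.mem_sup_right (single_sub_mem Γ _ x)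
  have hTm : ModularGroup.T ∈ connSub Γ K := by
    have : ModularGroup.T = ModularGroup.S⁻¹ * Umat := by
      simp [Umat]
    rw [this]
    exact (connSub Γ K).mul_mem ((connSub Γ K).inv_mem hSm) hUm
  rw [eq_top_iff, ← SpecialLinearGroup.SL2Z_generators, Subgroup.closure_le]
  rintro g (rfl | rfl)
  · exact hSm
  · exact hTm

theorem exists_conn (x : X Γ) :
    ∃ α ∈ LinearMap.ker (sumMap (Og Γ ModularGroup.S) K),
      ∃ β ∈ LinearMap.ker (sumMap (Og Γ Umat) K),
        α + β = (Pi.single x (1 : K) - Pi.single (x0 Γ) (1 : K) : X Γ → K) := by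
  rw [← Submodule.mem_sup]
  induction x using QuotientGroup.induction_on with
  | H g =>
    have hg : g • (x0 Γ) = (g : X Γ) := by
      change (((g * 1 : SL(2, ℤ))) : X Γ) = (g : X Γ)
      rw [mul_one]
    have : g ∈ connSub Γ K := by rw [connSub_eq_top]; trivial
    have h := this (x0 Γ)
    rwa [hg] at h

theorem exists_bigMap :
    ∃ F : {φ : Additive Γ →+ K // IsParabolicHom Γ φ ∧
          ∀ γ : Γ, γ ^ 12 = 1 → φ (Additive.ofMul γ) = 0} × (X Γ → K)
            × (OQ (Og Γ ModularGroup.T) → K) →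
        LinearMap.ker (sumMap (Og Γ ModularGroup.S) K) × LinearMap.ker (sumMap (Og Γ Umat) K)
          × K × K, Function.Injective F := by
  classical
  choose r hr using fun q : OQ (Og Γ ModularGroup.T) => q.2
  choose α hα β hβ hαβ using fun q : OQ (Og Γ ModularGroup.T) => exists_conn Γ K (r q)
  have hrmem : ∀ q q' : OQ (Og Γ ModularGroup.T), r q ∈ q'.1 ↔ q = q' := by
    intro q q'
    constructor
    · intro h
      rw [← hr q'] at h
      apply Subtype.ext
      rw [← hr q, ← hr q']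
      exact Og_eq Γ _ _ _ h
    · rintro rfl
      have := Og_self Γ ModularGroup.T (r q)
      rwa [hr q] at this
  -- the value of `sumMap OT` on the correction terms
  have hD : ∀ (w : OQ (Og Γ ModularGroup.T) → K) (q' : OQ (Og Γ ModularGroup.T)),
      sumMap (Og Γ ModularGroup.T) K (∑ q, w q • α q + ∑ q, w q • β q) q'
        = w q' - (∑ q, w q) * sumMap (Og Γ ModularGroup.T) K (Pi.single (x0 Γ) (1 : K)) q' := by
    intro w q'
    rw [← Finset.sum_add_distrib]
    simp only [← smul_add, hαβ, map_sum, map_smul, map_sub, Finset.sum_apply, Pi.smul_apply,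
      Pi.sub_apply, smul_eq_mul, mul_sub, Finset.sum_sub_distrib, ← Finset.sum_mul]
    congr 1
    simp only [sumMap_apply, Finset.sum_pi_single', hrmem, mul_ite, mul_one, mul_zero,
      Finset.sum_ite_eq', Finset.mem_univ, if_true]
  refine ⟨fun P =>
    (⟨- ccK Γ P.1.1 P.2.1 ModularGroup.S + ∑ q, P.2.2 q • α q,
        Submodule.add_mem _ (Submodule.neg_mem _ (ccK_mem_of_pow Γ _ P.1.2.2 _ _ S_pow_twelve))
          (Submodule.sum_mem _ fun q _ => Submodule.smul_mem _ _ (hα q))⟩,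
     ⟨ccK Γ P.1.1 P.2.1 Umat + ∑ q, P.2.2 q • β q,
        Submodule.add_mem _ (ccK_mem_of_pow Γ _ P.1.2.2 _ _ U_pow_twelve)
          (Submodule.sum_mem _ fun q _ => Submodule.smul_mem _ _ (hβ q))⟩,
     P.2.1 (x0 Γ), ∑ q, P.2.2 q), ?_⟩
  rintro ⟨⟨φ, hφ⟩, v, w⟩ ⟨⟨φ', hφ'⟩, v', w'⟩ h
  simp only [Prod.mk.injEq, Subtype.mk.injEq] at h
  obtain ⟨h1, h2, h3, h4⟩ := h
  have hw : w = w' := by
    funext q'
    have e : (- ccK Γ φ v ModularGroup.S + ccK Γ φ v Umat) + (∑ q, w q • α q + ∑ q, w q • β q)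
        = (- ccK Γ φ' v' ModularGroup.S + ccK Γ φ' v' Umat)
          + (∑ q, w' q • α q + ∑ q, w' q • β q) := by
      linear_combination (exp := 1) h1 + h2
    have e' := congrFun (congrArg (sumMap (Og Γ ModularGroup.T) K) e) q'
    rw [map_add _ (- ccK Γ φ v ModularGroup.S + ccK Γ φ v Umat),
      map_add _ (- ccK Γ φ' v' ModularGroup.S + ccK Γ φ' v' Umat),
      LinearMap.mem_ker.1 (neg_add_mem Γ φ hφ.1 v),
      LinearMap.mem_ker.1 (neg_add_mem Γ φ' hφ'.1 v'), zero_add, zero_add, hD, hD, h4] at e'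
    exact sub_left_injective e'
  subst hw
  have h5 : ccK Γ φ v ModularGroup.S = ccK Γ φ' v' ModularGroup.S :=
    neg_injective (add_right_cancel h1)
  have h6 : ccK Γ φ v Umat = ccK Γ φ' v' Umat := add_right_cancel h2
  obtain ⟨h7, h8⟩ := ker_auxK Γ (φ - φ') (v - v') (by rw [ccK_sub, h5, sub_self])
    (by rw [ccK_sub, h6, sub_self])
  have e1 : φ = φ' := sub_eq_zero.mp h7
  have e2 : v = v' := by
    funext x
    have := h8 x
    simp only [Pi.sub_apply] at this
    linear_combination this + h3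
  subst e1 e2
  rfl

theorem card_mul_le (n : ℕ) [NeZero n] :
    Finite {φ : Additive Γ →+ ZMod n // IsParabolicHom Γ φ ∧
          ∀ γ : Γ, γ ^ 12 = 1 → φ (Additive.ofMul γ) = 0} ∧
    Nat.card {φ : Additive Γ →+ ZMod n // IsParabolicHom Γ φ ∧
          ∀ γ : Γ, γ ^ 12 = 1 → φ (Additive.ofMul γ) = 0} *
        n ^ (Nat.card (X Γ) + orbitCount Γ ModularGroup.S
          + orbitCount Γ (ModularGroup.S * ModularGroup.T) + orbitCount Γ ModularGroup.T)
      ≤ n ^ (2 * Nat.card (X Γ) + 2) := by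
  obtain ⟨F, hF⟩ := exists_bigMap Γ (ZMod n)
  have hfin1 : Finite (LinearMap.ker (sumMap (Og Γ ModularGroup.S) (ZMod n))) := inferInstance
  have hfin2 : Finite (LinearMap.ker (sumMap (Og Γ Umat) (ZMod n))) := inferInstance
  have hfinP := Finite.of_injective _ hF
  have hfin : Finite {φ : Additive Γ →+ ZMod n // IsParabolicHom Γ φ ∧
          ∀ γ : Γ, γ ^ 12 = 1 → φ (Additive.ofMul γ) = 0} :=
    Finite.of_injective (fun φ => ((φ, 0, 0) : {φ : Additive Γ →+ ZMod n // IsParabolicHom Γ φ ∧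
          ∀ γ : Γ, γ ^ 12 = 1 → φ (Additive.ofMul γ) = 0} × (X Γ → ZMod n)
            × (OQ (Og Γ ModularGroup.T) → ZMod n)))
      (fun a b h => congrArg Prod.fst h)
  refine ⟨hfin, ?_⟩
  have h := Nat.card_le_card_of_injective _ hF
  have hS := card_ker_mul (Og Γ ModularGroup.S) (Og_self Γ _) (Og_eq Γ _) n
  have hU := card_ker_mul (Og Γ Umat) (Og_self Γ _) (Og_eq Γ _) n
  rw [card_OQ, ← Nat.card_eq_fintype_card] at hS hU
  rw [Nat.card_prod, Nat.card_prod, Nat.card_prod, Nat.card_prod, Nat.card_prod, Nat.card_fun,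
    Nat.card_fun, Nat.card_zmod, Nat.card_eq_fintype_card (α := OQ (Og Γ ModularGroup.T)),
    card_OQ] at h
  change _ * n ^ (Nat.card (X Γ) + orbitCount Γ ModularGroup.S
          + orbitCount Γ Umat + orbitCount Γ ModularGroup.T) ≤ _
  set H := Nat.card {φ : Additive Γ →+ ZMod n // IsParabolicHom Γ φ ∧
          ∀ γ : Γ, γ ^ 12 = 1 → φ (Additive.ofMul γ) = 0}
  set vS := Nat.card (LinearMap.ker (sumMap (Og Γ ModularGroup.S) (ZMod n)))
  set vU := Nat.card (LinearMap.ker (sumMap (Og Γ Umat) (ZMod n)))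
  calc H * n ^ (Nat.card (X Γ) + orbitCount Γ ModularGroup.S
          + orbitCount Γ Umat + orbitCount Γ ModularGroup.T)
      = (H * (n ^ Nat.card (X Γ) * n ^ orbitCount Γ ModularGroup.T))
          * (n ^ orbitCount Γ ModularGroup.S * n ^ orbitCount Γ Umat) := by ring
    _ ≤ (vS * (vU * (n * n)))
          * (n ^ orbitCount Γ ModularGroup.S * n ^ orbitCount Γ Umat) :=
        Nat.mul_le_mul_right _ h
    _ = (vS * n ^ orbitCount Γ ModularGroup.S) * (vU * n ^ orbitCount Γ Umat) * (n * n) := by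
        ring
    _ = n ^ (2 * Nat.card (X Γ) + 2) := by
        rw [hS, hU]
        ring

end Count

theorem card_isParEll_mul_le (N : ℕ) [NeZero N] (n : ℕ) [NeZero n] :
    Finite {φ : Additive (Gamma0 N) →+ ZMod n // IsParEll N φ} ∧
    Nat.card {φ : Additive (Gamma0 N) →+ ZMod n // IsParEll N φ} *
        n ^ (Nat.card (X (Gamma0 N)) + orbitCount (Gamma0 N) ModularGroup.S
          + orbitCount (Gamma0 N) (ModularGroup.S * ModularGroup.T)
          + orbitCount (Gamma0 N) ModularGroup.T)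
      ≤ n ^ (2 * Nat.card (X (Gamma0 N)) + 2) :=
  Count.card_mul_le (Gamma0 N) n

end Fermat.Agent.ES.Coh
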