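import Fermat.Agent.S16.Shimura.PeriodHecke

/-!
# ES / Coh: additive characters of `Γ₀(N)` killing parabolic and elliptic elements,
and the group theoretic Hecke operators `T_ℓ` (`ℓ ∤ N`) on them.
-/

set_option autoImplicit false
set_option linter.unusedSectionVars false

open UpperHalfPlane ModularForm CongruenceSubgroup Filter Topology Matrix.SpecialLinearGroup
open scoped MatrixGroups ModularForm Manifold

namespace Fermat.Agent.ES.Coh

open Fermat.Agent.S21 ModularCurve ModularCurve.Period Fermat.Agent.S16.Shimura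
open P2MW.S_ModularForm_heckeT_slash_eq_self_of_mem_Gamma0.ModularForm.HeckeSlashInvariance

/-- A sum over a finite set vanishes as soon as the sums over all closed orbit segments of a
permutation vanish. -/
theorem sum_eq_zero_of_orbit_sums {X A : Type} [Fintype X] [AddCommMonoid A]
    (s : Equiv.Perm X) (g : X → A)
    (h : ∀ (x : X) (r : ℕ), 0 < r → (s ^ r) x = x → ∑ i ∈ Finset.range r, g ((s ^ i) x) = 0) :
    ∑ x, g x = 0 := by
  classical
  -- strong induction over `s`-stable finsets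
  have key : ∀ (n : ℕ) (Y : Finset X), Y.card = n → (∀ x, x ∈ Y ↔ s x ∈ Y) →
      ∑ x ∈ Y, g x = 0 := by
    intro n
    induction n using Nat.strong_induction_on with
    | _ n ih =>
      intro Y hY hs
      rcases Y.eq_empty_or_nonempty with rfl | ⟨x, hx⟩
      · simp
      · set r := Function.minimalPeriod s x with hr
        have hper : x ∈ Function.periodicPts s := by
          have := isOfFinOrder_of_finite s
          obtain ⟨m, hm, hm'⟩ := this.exists_pow_eq_one
          refine ⟨m, hm, ?_⟩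
          rw [Function.IsPeriodicPt, Function.IsFixedPt, ← Equiv.Perm.coe_pow, hm']
          rfl
        have hrpos : 0 < r := Function.minimalPeriod_pos_of_mem_periodicPts hper
        have hrx : (s ^ r) x = x := by
          have := Function.isPeriodicPt_minimalPeriod s x
          rw [Function.IsPeriodicPt, Function.IsFixedPt, ← Equiv.Perm.coe_pow] at this
          exact this
        set O : Finset X := (Finset.range r).image (fun i => (s ^ i) x) with hO
        have hinj : Set.InjOn (fun i => (s ^ i) x) (Finset.range r : Set ℕ) := by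
          intro i hi j hj hij
          simp only [Finset.coe_range, Set.mem_Iio] at hi hj
          have hij' : s^[i] x = s^[j] x := by
            simpa [Equiv.Perm.coe_pow] using hij
          exact (Function.iterate_eq_iterate_iff_of_lt_minimalPeriod hi hj).1 hij'
        have hsumO : ∑ y ∈ O, g y = 0 := by
          rw [hO, Finset.sum_image hinj]
          exact h x r hrpos hrx
        have hpowY : ∀ i : ℕ, (s ^ i) x ∈ Y := by
          intro i
          induction i with
          | zero => simpa using hx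
          | succ i ih' =>
            rw [pow_succ', Equiv.Perm.mul_apply]
            exact (hs _).1 ih'
        have hOY : O ⊆ Y := by
          intro y hy
          rw [hO, Finset.mem_image] at hy
          obtain ⟨i, _, rfl⟩ := hy
          exact hpowY i
        have hOs : ∀ y, y ∈ O ↔ s y ∈ O := by
          intro y
          constructor
          · intro hy
            rw [hO, Finset.mem_image] at hy ⊢
            obtain ⟨i, hi, rfl⟩ := hy
            rw [Finset.mem_range] at hi
            by_cases hi' : i + 1 < r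
            · exact ⟨i + 1, Finset.mem_range.2 hi', by rw [pow_succ', Equiv.Perm.mul_apply]⟩
            · have : i + 1 = r := by omega
              refine ⟨0, Finset.mem_range.2 hrpos, ?_⟩
              rw [pow_zero, Equiv.Perm.one_apply, ← Equiv.Perm.mul_apply, ← pow_succ', this, hrx]
          · intro hy
            rw [hO, Finset.mem_image] at hy ⊢
            obtain ⟨i, hi, hiy⟩ := hy
            rw [Finset.mem_range] at hi
            rcases Nat.eq_zero_or_pos i with rfl | hipos
            · refine ⟨r - 1, Finset.mem_range.2 (by omega), ?_⟩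
              apply s.injective
              rw [← hiy, ← Equiv.Perm.mul_apply, ← pow_succ', Nat.sub_add_cancel hrpos, hrx]
              simp
            · refine ⟨i - 1, Finset.mem_range.2 (by omega), ?_⟩
              apply s.injective
              rw [← hiy, ← Equiv.Perm.mul_apply, ← pow_succ', Nat.sub_add_cancel hipos]
        have hxO : x ∈ O := by
          rw [hO, Finset.mem_image]
          exact ⟨0, Finset.mem_range.2 hrpos, by simp⟩
        have hcard : (Y \ O).card < n := by
          rw [← hY]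
          exact Finset.card_lt_card (Finset.sdiff_ssubset hOY ⟨x, hxO⟩)
        have h2 := ih _ hcard (Y \ O) rfl (fun y => by
          rw [Finset.mem_sdiff, Finset.mem_sdiff, hs y, hOs y])
        rw [← Finset.sum_sdiff hOY, h2, hsumO, add_zero]
  exact key _ Finset.univ rfl (fun x => by simp)

/-! ### powers of parabolic matrices -/

theorem mul_self_eq_trace_smul (M : Matrix (Fin 2) (Fin 2) ℤ) (hdet : M.det = 1) :
    M * M = M.trace • M - 1 := by
  rw [Matrix.det_fin_two] at hdet
  ext i j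
  fin_cases i <;> fin_cases j <;>
    simp only [Matrix.mul_apply, Fin.sum_univ_two, Matrix.trace_fin_two, Matrix.sub_apply,
      Matrix.smul_apply, smul_eq_mul, Matrix.one_apply, Fin.zero_eta, Fin.mk_one, Fin.isValue,
      if_true, one_ne_zero, zero_ne_one, if_false] <;>
    first | linear_combination -hdet | ring

theorem trace_pow_sq (M : Matrix (Fin 2) (Fin 2) ℤ) (hdet : M.det = 1) (h : M.trace ^ 2 = 4)
    (r : ℕ) : (M ^ r).trace ^ 2 = 4 := by
  have hCH := mul_self_eq_trace_smul M hdet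
  have key : ∀ r : ℕ, (M ^ r).trace ^ 2 = 4 ∧ 2 * (M ^ (r + 1)).trace = M.trace * (M ^ r).trace := by
    intro r
    induction r with
    | zero => simp [Matrix.trace_fin_two]; ring
    | succ r ih =>
      obtain ⟨h1, h2⟩ := ih
      have h3 : (M ^ (r + 1 + 1)).trace = M.trace * (M ^ (r + 1)).trace - (M ^ r).trace := by
        rw [pow_succ (M) (r + 1), pow_succ M r, mul_assoc, hCH, mul_sub, mul_one, Matrix.mul_smul,
          Matrix.trace_sub, Matrix.trace_smul, smul_eq_mul]
      constructor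
      · have : 4 * (M ^ (r + 1)).trace ^ 2 = 16 := by
          calc 4 * (M ^ (r + 1)).trace ^ 2 = (2 * (M ^ (r + 1)).trace) ^ 2 := by ring
            _ = M.trace ^ 2 * (M ^ r).trace ^ 2 := by rw [h2]; ring
            _ = 16 := by rw [h, h1]; norm_num
        linarith
      · rw [h3]
        have h4 : 2 * (M.trace * (M ^ (r + 1)).trace) = 4 * (M ^ r).trace := by
          linear_combination (M.trace) * h2 + (M ^ r).trace * h
        linarith
  exact (key r).1

/-! ### the Hecke correspondence is a "cocycle" -/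

section T

variable (N : ℕ) (ℓ : ℕ) [Fact ℓ.Prime] (hℓN : ¬ ℓ ∣ N)

theorem redMatrix_mul (g h : SL(2, ℤ)) :
    redMatrix ℓ (g * h) = redMatrix ℓ h * redMatrix ℓ g := by
  ext i j
  rw [Matrix.GeneralLinearGroup.coe_mul]
  fin_cases i <;> fin_cases j <;>
    simp [Matrix.mul_apply, Fin.sum_univ_two, Matrix.SpecialLinearGroup.coe_mul] <;> ring

theorem redMatrix_one : redMatrix ℓ 1 = 1 := by
  ext i j
  fin_cases i <;> fin_cases j <;> simp

theorem redMatrix_pow (g : SL(2, ℤ)) (r : ℕ) : redMatrix ℓ (g ^ r) = redMatrix ℓ g ^ r := by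
  induction r with
  | zero => simp [redMatrix_one]
  | succ r ih => rw [pow_succ, redMatrix_mul, ih, pow_succ']

theorem mapGL_real_injective : Function.Injective (mapGL ℝ : SL(2, ℤ) → GL (Fin 2) ℝ) := by
  intro a b hab
  ext i j
  have := congrArg (fun M : GL (Fin 2) ℝ => (M : Matrix (Fin 2) (Fin 2) ℝ) i j) hab
  simpa [mapGL_apply] using this

include hℓN in
theorem corrT_mul (γ δ : Gamma0 N) (x : OnePoint (ZMod ℓ)) :
    corrT N ℓ hℓN (γ * δ) x
      = corrT N ℓ hℓN γ x * corrT N ℓ hℓN δ (redMatrix ℓ (γ : SL(2, ℤ)) • x) := by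
  apply Subtype.ext
  apply mapGL_real_injective
  have h1 := corrT_spec N ℓ hℓN (γ * δ) x
  have h2 := corrT_spec N ℓ hℓN γ x
  have h3 := corrT_spec N ℓ hℓN δ (redMatrix ℓ (γ : SL(2, ℤ)) • x)
  rw [Subgroup.coe_mul, redMatrix_mul, mul_smul, map_mul, ← mul_assoc, h2, mul_assoc, h3,
    ← mul_assoc] at h1
  rw [Subgroup.coe_mul, map_mul]
  exact (mul_right_cancel h1).symm

include hℓN in
theorem corrT_one (x : OnePoint (ZMod ℓ)) : corrT N ℓ hℓN 1 x = 1 := by
  have h := corrT_mul N ℓ hℓN 1 1 x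
  rw [mul_one, Subgroup.coe_one, redMatrix_one, one_smul] at h
  exact (mul_eq_left.mp h.symm)

/-- the permutation of `ℙ¹(𝔽_ℓ)` attached to `γ`. -/
noncomputable def permT (γ : Gamma0 N) : Equiv.Perm (OnePoint (ZMod ℓ)) :=
  MulAction.toPerm (redMatrix ℓ (γ : SL(2, ℤ)))

theorem permT_apply (γ : Gamma0 N) (x : OnePoint (ZMod ℓ)) :
    permT N ℓ γ x = redMatrix ℓ (γ : SL(2, ℤ)) • x := rfl

theorem permT_pow_apply (γ : Gamma0 N) (r : ℕ) (x : OnePoint (ZMod ℓ)) :
    (permT N ℓ γ ^ r) x = redMatrix ℓ ((γ ^ r : Gamma0 N) : SL(2, ℤ)) • x := by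
  rw [Subgroup.coe_pow, redMatrix_pow]
  have : permT N ℓ γ ^ r = MulAction.toPerm (redMatrix ℓ (γ : SL(2, ℤ)) ^ r) :=
    (map_pow (MulAction.toPermHom (GL (Fin 2) (ZMod ℓ)) (OnePoint (ZMod ℓ))) _ r).symm
  rw [this]
  rfl

include hℓN in
theorem map_corrT_pow {A : Type} [AddCommGroup A] (φ : Additive (Gamma0 N) →+ A) (γ : Gamma0 N)
    (r : ℕ) (x : OnePoint (ZMod ℓ)) :
    φ (Additive.ofMul (corrT N ℓ hℓN (γ ^ r) x))
      = ∑ i ∈ Finset.range r, φ (Additive.ofMul (corrT N ℓ hℓN γ ((permT N ℓ γ ^ i) x))) := by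
  induction r with
  | zero => simp [corrT_one]
  | succ r ih =>
    rw [pow_succ, corrT_mul, ofMul_mul, map_add, ih, Finset.sum_range_succ, permT_pow_apply]

include hℓN in
theorem mapGL_corrT_of_fixed (γ : Gamma0 N) (x : OnePoint (ZMod ℓ))
    (hx : redMatrix ℓ (γ : SL(2, ℤ)) • x = x) :
    mapGL ℝ (corrT N ℓ hℓN γ x : SL(2, ℤ))
      = heckeRep ℓ x * mapGL ℝ (γ : SL(2, ℤ)) * (heckeRep ℓ x)⁻¹ := by
  have h := corrT_spec N ℓ hℓN γ x
  rw [hx] at h
  rw [h, mul_assoc, mul_inv_cancel, mul_one]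

theorem trace_mapGL (g : SL(2, ℤ)) :
    ((mapGL ℝ g : GL (Fin 2) ℝ) : Matrix (Fin 2) (Fin 2) ℝ).trace
      = (((g : Matrix (Fin 2) (Fin 2) ℤ).trace : ℤ) : ℝ) := by
  simp [Matrix.trace_fin_two, mapGL_apply]

include hℓN in
theorem trace_corrT_of_fixed (γ : Gamma0 N) (x : OnePoint (ZMod ℓ))
    (hx : redMatrix ℓ (γ : SL(2, ℤ)) • x = x) :
    ((corrT N ℓ hℓN γ x : SL(2, ℤ)) : Matrix (Fin 2) (Fin 2) ℤ).trace
      = ((γ : SL(2, ℤ)) : Matrix (Fin 2) (Fin 2) ℤ).trace := by
  have h := congrArg (fun M : GL (Fin 2) ℝ => (M : Matrix (Fin 2) (Fin 2) ℝ).trace)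
    (mapGL_corrT_of_fixed N ℓ hℓN γ x hx)
  simp only [Matrix.GeneralLinearGroup.coe_mul] at h
  have h2 := Matrix.trace_units_conj (heckeRep ℓ x)
    ((mapGL ℝ (γ : SL(2, ℤ)) : GL (Fin 2) ℝ) : Matrix (Fin 2) (Fin 2) ℝ)
  rw [h2, trace_mapGL, trace_mapGL] at h
  exact_mod_cast h

include hℓN in
theorem corrT_pow_of_fixed (γ : Gamma0 N) (x : OnePoint (ZMod ℓ))
    (hx : redMatrix ℓ (γ : SL(2, ℤ)) • x = x) (n : ℕ) (hn : γ ^ n = 1) :
    corrT N ℓ hℓN γ x ^ n = 1 := by
  apply Subtype.ext
  apply mapGL_real_injective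
  rw [Subgroup.coe_pow, map_pow, mapGL_corrT_of_fixed N ℓ hℓN γ x hx, conj_pow, ← map_pow,
    ← Subgroup.coe_pow, hn]
  simp

/-- The Hecke operator `T_ℓ` (`ℓ ∤ N`) on additive characters of `Γ₀(N)`. -/
noncomputable def heckeHom (A : Type) [AddCommGroup A] :
    (Additive (Gamma0 N) →+ A) →+ (Additive (Gamma0 N) →+ A) where
  toFun φ := AddMonoidHom.mk'
    (fun γ => ∑ x : OnePoint (ZMod ℓ), φ (Additive.ofMul (corrT N ℓ hℓN γ.toMul x)))
    (fun γ δ => by
      simp only [toMul_add, corrT_mul, ofMul_mul, map_add, Finset.sum_add_distrib]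
      congr 1
      exact Equiv.sum_comp (permT N ℓ γ.toMul)
        (fun x => φ (Additive.ofMul (corrT N ℓ hℓN δ.toMul x))))
  map_zero' := by ext γ; simp
  map_add' φ ψ := by ext γ; simp [Finset.sum_add_distrib]

theorem heckeHom_apply {A : Type} [AddCommGroup A] (φ : Additive (Gamma0 N) →+ A)
    (γ : Gamma0 N) :
    heckeHom N ℓ hℓN A φ (Additive.ofMul γ)
      = ∑ x : OnePoint (ZMod ℓ), φ (Additive.ofMul (corrT N ℓ hℓN γ x)) := rfl

/-- comparison with the operator `opT` of `S16/Shimura` on plain functions. -/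
theorem heckeHom_eq_opT {A : Type} [AddCommGroup A] (φ : Additive (Gamma0 N) →+ A) :
    (fun γ : Gamma0 N => heckeHom N ℓ hℓN A φ (Additive.ofMul γ))
      = (opT N ℓ hℓN).op A (fun γ => φ (Additive.ofMul γ)) := rfl

/-- naturality in the coefficients. -/
theorem heckeHom_comp {A B : Type} [AddCommGroup A] [AddCommGroup B] (g : A →+ B)
    (φ : Additive (Gamma0 N) →+ A) :
    heckeHom N ℓ hℓN B (g.comp φ) = g.comp (heckeHom N ℓ hℓN A φ) := by
  ext γ
  simp [heckeHom]

end T

/-! ### parabolic + elliptic vanishing -/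

/-- additive characters of `Γ₀(N)` killing all parabolic elements (`tr² = 4`) and all elements of
finite order (`γ¹² = 1`). -/
def IsParEll (N : ℕ) {A : Type} [AddCommGroup A] (φ : Additive (Gamma0 N) →+ A) : Prop :=
  IsParabolicHom (Gamma0 N) φ ∧ ∀ γ : Gamma0 N, γ ^ 12 = 1 → φ (Additive.ofMul γ) = 0

/-- `Hom_{par,ell}(Γ₀(N), A)` as an `R`-module. -/
def homPar (N : ℕ) (R : Type) [Semiring R] (A : Type) [AddCommGroup A] [Module R A] :
    Submodule R (Additive (Gamma0 N) →+ A) where
  carrier := {φ | IsParEll N φ}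
  zero_mem' := ⟨fun _ _ => rfl, fun _ _ => rfl⟩
  add_mem' := by
    rintro φ ψ ⟨h1, h2⟩ ⟨h1', h2'⟩
    exact ⟨fun γ hγ => by rw [AddMonoidHom.add_apply, h1 γ hγ, h1' γ hγ, add_zero],
      fun γ hγ => by rw [AddMonoidHom.add_apply, h2 γ hγ, h2' γ hγ, add_zero]⟩
  smul_mem' := by
    rintro c φ ⟨h1, h2⟩
    exact ⟨fun γ hγ => by rw [AddMonoidHom.smul_apply, h1 γ hγ, smul_zero],
      fun γ hγ => by rw [AddMonoidHom.smul_apply, h2 γ hγ, smul_zero]⟩

theorem mem_homPar {N : ℕ} {R : Type} [Semiring R] {A : Type} [AddCommGroup A] [Module R A]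
    {φ : Additive (Gamma0 N) →+ A} : φ ∈ homPar N R A ↔ IsParEll N φ := Iff.rfl

theorem IsParEll.comp {N : ℕ} {A B : Type} [AddCommGroup A] [AddCommGroup B] (g : A →+ B)
    {φ : Additive (Gamma0 N) →+ A} (hφ : IsParEll N φ) : IsParEll N (g.comp φ) :=
  ⟨fun γ hγ => by rw [AddMonoidHom.comp_apply, hφ.1 γ hγ, map_zero],
    fun γ hγ => by rw [AddMonoidHom.comp_apply, hφ.2 γ hγ, map_zero]⟩

section T2

variable (N : ℕ) (ℓ : ℕ) [Fact ℓ.Prime] (hℓN : ¬ ℓ ∣ N)

theorem IsParEll.heckeHom {A : Type} [AddCommGroup A] {φ : Additive (Gamma0 N) →+ A}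
    (hφ : IsParEll N φ) : IsParEll N (heckeHom N ℓ hℓN A φ) := by
  constructor
  · intro γ hγ
    rw [heckeHom_apply]
    refine sum_eq_zero_of_orbit_sums (permT N ℓ γ) _ fun x r _ hx => ?_
    rw [← map_corrT_pow]
    rw [permT_pow_apply] at hx
    refine hφ.1 _ ?_
    rw [trace_corrT_of_fixed N ℓ hℓN _ x hx, Subgroup.coe_pow,
      Matrix.SpecialLinearGroup.coe_pow]
    exact trace_pow_sq _ (γ : SL(2, ℤ)).det_coe hγ r
  · intro γ hγ
    rw [heckeHom_apply]
    refine sum_eq_zero_of_orbit_sums (permT N ℓ γ) _ fun x r _ hx => ?_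
    rw [← map_corrT_pow]
    rw [permT_pow_apply] at hx
    refine hφ.2 _ (corrT_pow_of_fixed N ℓ hℓN _ x hx 12 ?_)
    rw [← pow_mul, mul_comm, pow_mul, hγ, one_pow]

/-- `T_ℓ` as an `R`-linear endomorphism of `Hom_{par,ell}(Γ₀(N), A)`. -/
noncomputable def heckePar (R : Type) [Semiring R] (A : Type) [AddCommGroup A] [Module R A] :
    homPar N R A →ₗ[R] homPar N R A where
  toFun φ := ⟨heckeHom N ℓ hℓN A φ.1, IsParEll.heckeHom N ℓ hℓN φ.2⟩
  map_add' φ ψ := Subtype.ext (map_add _ _ _)
  map_smul' c φ := by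
    apply Subtype.ext
    ext γ
    simp [Fermat.Agent.ES.Coh.heckeHom, Finset.smul_sum]

theorem heckePar_coe {R : Type} [Semiring R] {A : Type} [AddCommGroup A] [Module R A]
    (φ : homPar N R A) :
    (heckePar N ℓ hℓN R A φ : Additive (Gamma0 N) →+ A) = heckeHom N ℓ hℓN A φ.1 := rfl

end T2

end Fermat.Agent.ES.Coh
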