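import Mathlib

/-!
# ES / Coh: specialisation of common kernel vectors

A family of linear forms on `k ^ r` all of whose `r × r` determinants vanish has a nonzero common
zero.  Consequently a family of linear forms with coefficients in a ring `R ⊆ L` which has a
nonzero common zero over the domain `L` has a nonzero common zero over every field `k`
receiving `R`.
-/

set_option autoImplicit false

namespace Fermat.Agent.ES.Coh

open Matrix

theorem exists_common_zero_of_det_eq_zero {r : ℕ} {J k : Type} [Field k]
    (ρ : J → Fin r → k) (h : ∀ j : Fin r → J, (Matrix.of fun i => ρ (j i)).det = 0) :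
    ∃ c' : Fin r → k, c' ≠ 0 ∧ ∀ j, ∑ s, ρ j s * c' s = 0 := by
  classical
  set S : Submodule k (Fin r → k) := Submodule.span k (Set.range ρ) with hS
  by_cases htop : S = ⊤
  · exfalso
    obtain ⟨f, hf, -, hli⟩ := Submodule.exists_fun_fin_finrank_span_eq k (Set.range ρ)
    have hr : Module.finrank k (Submodule.span k (Set.range ρ)) = r := by
      rw [← hS, htop, finrank_top]; simp
    choose j hj using hf
    set e : Fin r ≃ Fin (Module.finrank k (Submodule.span k (Set.range ρ))) := finCongr hr.symm
    have hli' : LinearIndependent k (Matrix.of fun i => ρ (j (e i))).row := by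
      have : (Matrix.of fun i => ρ (j (e i))).row = f ∘ e := by
        funext i
        funext s
        simp [Matrix.row, ← hj]
      rw [this]
      exact hli.comp _ e.injective
    rw [Matrix.linearIndependent_rows_iff_isUnit, Matrix.isUnit_iff_isUnit_det,
      h fun i => j (e i)] at hli'
    exact not_isUnit_zero hli'
  · obtain ⟨f, hf, hle⟩ := S.exists_le_ker_of_lt_top (lt_top_iff_ne_top.2 htop)
    refine ⟨fun s => f (Pi.single s 1), ?_, fun j => ?_⟩
    · intro h0
      apply hf
      apply LinearMap.pi_ext'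
      intro s
      ext
      simpa using congrFun h0 s
    · have h1 : ρ j ∈ S := Submodule.subset_span ⟨j, rfl⟩
      have h2 := hle h1
      rw [LinearMap.mem_ker] at h2
      have h3 : ρ j = ∑ s, ρ j s • (Pi.single s 1 : Fin r → k) := by
        funext t
        simp [Finset.sum_apply, Pi.single_apply]
      rw [h3, map_sum] at h2
      simpa using h2

theorem det_eq_zero_of_common_zero {r : ℕ} {L : Type} [CommRing L] [IsDomain L]
    (B : Matrix (Fin r) (Fin r) L) (c : Fin r → L) (hc : c ≠ 0)
    (h : ∀ i, ∑ s, B i s * c s = 0) : B.det = 0 := by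
  classical
  rw [← Matrix.exists_mulVec_eq_zero_iff]
  refine ⟨c, hc, ?_⟩
  funext i
  simpa [Matrix.mulVec, dotProduct] using h i

theorem exists_common_zero_of_ringHom {r : ℕ} {J R L k : Type} [CommRing R] [CommRing L]
    [IsDomain L] [Field k] (ι : R →+* L) (hι : Function.Injective ι) (φ : R →+* k)
    (ρ : J → Fin r → R) (c : Fin r → L) (hc : c ≠ 0)
    (h : ∀ j, ∑ s, ι (ρ j s) * c s = 0) :
    ∃ c' : Fin r → k, c' ≠ 0 ∧ ∀ j, ∑ s, φ (ρ j s) * c' s = 0 := by
  classical
  refine exists_common_zero_of_det_eq_zero (fun j s => φ (ρ j s)) fun j => ?_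
  set B : Matrix (Fin r) (Fin r) R := Matrix.of fun i => ρ (j i) with hB
  have hdet0 : B.det = 0 := by
    apply hι
    rw [map_zero, RingHom.map_det]
    exact det_eq_zero_of_common_zero _ c hc fun i => by simpa [hB] using h (j i)
  have : (Matrix.of fun i => fun s => φ (ρ (j i) s)) = φ.mapMatrix B := by
    ext i s
    simp [hB]
  rw [this, ← RingHom.map_det, hdet0, map_zero]

/-- an eigenvalue of an integral matrix is an algebraic integer. -/
theorem isIntegral_of_eigenvalue {r : ℕ} (M : Matrix (Fin r) (Fin r) ℤ) (c : Fin r → ℂ)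
    (hc : c ≠ 0) (a : ℂ) (h : ∀ i, ∑ s, (M i s : ℂ) * c s = a * c i) : IsIntegral ℤ a := by
  classical
  refine ⟨M.charpoly, M.charpoly_monic, ?_⟩
  have h1 : Polynomial.eval₂ (algebraMap ℤ ℂ) a M.charpoly
      = ((algebraMap ℤ ℂ).mapMatrix M).charpoly.eval a := by
    rw [RingHom.mapMatrix_apply, Matrix.charpoly_map, Polynomial.eval_map]
  rw [h1, Matrix.eval_charpoly]
  refine det_eq_zero_of_common_zero _ c hc fun i => ?_
  have := h i
  simp only [Matrix.sub_apply, Matrix.scalar_apply, Matrix.diagonal_apply, sub_mul,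
    Finset.sum_sub_distrib, RingHom.mapMatrix_apply, Matrix.map_apply]
  simp only [ite_mul, zero_mul, Finset.sum_ite_eq, Finset.mem_univ, if_true]
  rw [sub_eq_zero]
  simpa using this.symm

end Fermat.Agent.ES.Coh

namespace Fermat.Agent.ES.Coh

open Matrix

/-- the determinant trick. -/
theorem det_smul_eq_zero {r : ℕ} {R M : Type} [CommRing R] [AddCommGroup M] [Module R M]
    (B : Matrix (Fin r) (Fin r) R) (e : Fin r → M) (h : ∀ i, ∑ s, B i s • e s = 0) (s : Fin r) :
    B.det • e s = 0 := by
  classical
  have h1 : ∑ i, B.adjugate s i • ∑ t, B i t • e t = 0 :=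
    Finset.sum_eq_zero fun i _ => by rw [h i, smul_zero]
  simp only [Finset.smul_sum, smul_smul] at h1
  rw [Finset.sum_comm] at h1
  simp only [← Finset.sum_smul] at h1
  have h2 : ∀ t, ∑ i, B.adjugate s i * B i t = (B.det • (1 : Matrix (Fin r) (Fin r) R)) s t := by
    intro t
    rw [← Matrix.adjugate_mul, Matrix.mul_apply]
  simp only [h2, Matrix.smul_apply, Matrix.one_apply, smul_eq_mul, mul_ite, mul_one, mul_zero,
    ite_smul, zero_smul, Finset.sum_ite_eq, Finset.mem_univ, if_true] at h1
  exact h1

end Fermat.Agent.ES.Coh
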