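import Fermat.Agent.ES.Coh.Coords
import Fermat.Agent.ES.Coh.LinAlg
import Fermat.Agent.S49.QCoeff
import Fermat.Agent.S49.LinAlg

/-!
# ES / Coh: Hecke eigensystems of weight two cusp forms occur in `Hom_{par,ell}(Γ₀(N), k)`
-/

set_option autoImplicit false
set_option linter.unusedSectionVars false

open UpperHalfPlane ModularForm CongruenceSubgroup Filter Topology Matrix.SpecialLinearGroup
open scoped MatrixGroups ModularForm Manifold TensorProduct

namespace Fermat.Agent.ES.Coh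

open Fermat.Agent.S21 ModularCurve ModularCurve.Period Fermat.Agent.S16.Shimura
open ModularFormClass

/-! ### normalized eigenforms are eigenvectors -/

theorem heckeTLin_eq_smul {N : ℕ} {g : CuspForm (Gamma0 N) 2} (hg : g.IsNormalizedEigenform)
    {ℓ : ℕ} (hℓ : ℓ.Prime) (hℓN : ¬ ℓ ∣ N) :
    CuspForm.heckeTLin 2 hℓ hℓN g = qCoeff g ℓ • g := by
  rw [← sub_eq_zero]
  apply Fermat.Agent.S49.eq_zero_of_qCoeff
  intro n
  have hsub : qCoeff (⇑(CuspForm.heckeTLin 2 hℓ hℓN g - qCoeff g ℓ • g)) n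
      = qCoeff (CuspForm.heckeTLin 2 hℓ hℓN g) n - qCoeff g ℓ * qCoeff g n := by
    have := (Fermat.Agent.S49.qCoeffLin N 2 n).map_sub (CuspForm.heckeTLin 2 hℓ hℓN g)
      (qCoeff g ℓ • g)
    simp only [Fermat.Agent.S49.qCoeffLin_apply] at this
    rw [this, Fermat.Agent.S49.qCoeff_smul]
  rw [hsub, Fermat.Agent.S49.qCoeff_heckeTLin, sub_eq_zero]
  have h21 : (ℓ : ℂ) ^ ((2 : ℤ) - 1) = ℓ := by norm_num
  rw [h21]
  rcases Nat.eq_zero_or_pos n with rfl | hn
  · simp [Fermat.Agent.S49.qCoeff_index_zero]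
  · obtain ⟨r, m, hm, rfl⟩ := Nat.exists_eq_pow_mul_and_not_dvd hn.ne' ℓ hℓ.ne_one
    have hcop : ∀ s : ℕ, (ℓ ^ s).Coprime m :=
      fun s => Nat.Coprime.pow_left s ((Nat.Prime.coprime_iff_not_dvd hℓ).2 hm)
    cases r with
    | zero =>
      rw [pow_zero, one_mul, if_neg hm, add_zero, mul_comm m ℓ]
      have := hg.qCoeff_mul_of_coprime ℓ m (by simpa using hcop 1)
      rw [this]
    | succ s =>
      have h1 : ℓ ∣ ℓ ^ (s + 1) * m := Dvd.dvd.mul_right (dvd_pow_self ℓ (Nat.succ_ne_zero s)) m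
      have h2 : ℓ ^ (s + 1) * m / ℓ = ℓ ^ s * m := by
        rw [pow_succ, mul_assoc, mul_comm ℓ m, ← mul_assoc, Nat.mul_div_cancel _ hℓ.pos]
      have h3 : ℓ ^ (s + 1) * m * ℓ = ℓ ^ (s + 2) * m := by ring
      rw [if_pos h1, h2, h3, hg.qCoeff_mul_of_coprime _ _ (hcop _),
        hg.qCoeff_mul_of_coprime _ _ (hcop _), hg.qCoeff_mul_of_coprime _ _ (hcop _),
        hg.qCoeff_prime_pow_of_not_dvd ℓ s hℓ hℓN]
      ring

/-! ### the period character -/

variable (N : ℕ) [NeZero N]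

/-- the period character of a cusp form of weight two. -/
noncomputable def perC : CuspForm (Gamma0 N) 2 →ₗ[ℂ] (Additive (Gamma0 N) →+ ℂ) :=
  perHom N ∘ₗ cuspIncl N

theorem perC_apply (f : CuspForm (Gamma0 N) 2) (γ : Gamma0 N) :
    perC N f (Additive.ofMul γ) = per N f γ := rfl

theorem perC_injective : Function.Injective (perC N) := by
  rw [← LinearMap.ker_eq_bot, LinearMap.ker_eq_bot']
  intro f hf
  have h := perHom_injective_cusp N (cuspIncl N f) 0 (cuspIncl_mem_CF N f)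
    (Submodule.zero_mem _) (by
      rw [map_zero, map_zero, add_zero]
      exact hf)
  exact cuspIncl_injective N (h.1.trans (map_zero _).symm)

theorem IsParEll.of_parabolic {A : Type} [AddCommGroup A] [IsAddTorsionFree A]
    {φ : Additive (Gamma0 N) →+ A} (h : IsParabolicHom (Gamma0 N) φ) : IsParEll N φ := by
  refine ⟨h, fun γ hγ => ?_⟩
  have h1 : (12 : ℕ) • φ (Additive.ofMul γ) = 0 := by
    rw [← map_nsmul, ← ofMul_pow, hγ, ofMul_one, map_zero]
  exact (nsmul_eq_zero_iff_right (by norm_num)).1 h1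

theorem isParEll_perC (f : CuspForm (Gamma0 N) 2) : IsParEll N (perC N f) :=
  IsParEll.of_parabolic N
    (mem_parabolicHoms_iff.1 (perHom_mem_parabolicHoms N _ (cuspIncl_mem_CF N f)))

theorem heckeHom_perC (ℓ : ℕ) [Fact ℓ.Prime] (hℓN : ¬ ℓ ∣ N) (f : CuspForm (Gamma0 N) 2) :
    heckeHom N ℓ hℓN ℂ (perC N f) = perC N (CuspForm.heckeTLin 2 Fact.out hℓN f) := by
  refine AddMonoidHom.ext fun γ => ?_
  exact congrFun (per_heckeT N ℓ hℓN f) γ.toMul

/-- the coordinate vector of the period character. -/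
noncomputable def perVec (f : CuspForm (Gamma0 N) 2) : Fin (rk N) → ℂ :=
  fun i => perC N f (Additive.ofMul (gam N i))

theorem comb_perVec (f : CuspForm (Gamma0 N) 2) : comb N ℂ (perVec N f) = perC N f :=
  (eq_comb N _ (isParEll_perC N f)).symm

theorem perVec_ne_zero {f : CuspForm (Gamma0 N) 2} (hf : f ≠ 0) : perVec N f ≠ 0 := by
  intro h
  apply hf
  apply perC_injective N
  rw [← comb_perVec, h, map_zero]
  refine AddMonoidHom.ext fun g => ?_
  simp [comb_apply]

/-- the eigenvector equation in coordinates. -/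
theorem perVec_eigen (ℓ : ℕ) [Fact ℓ.Prime] (hℓN : ¬ ℓ ∣ N) (f : CuspForm (Gamma0 N) 2) (a : ℂ)
    (h : CuspForm.heckeTLin 2 Fact.out hℓN f = a • f) (j : Fin (rk N)) :
    ∑ i, perVec N f i * (heckeMat N ℓ hℓN i j : ℂ) = a * perVec N f j := by
  have h1 := heckeHom_comb N ℓ hℓN (perVec N f)
  rw [comb_perVec, heckeHom_perC, h, map_smul, ← comb_perVec, ← comb_smul] at h1
  exact (congrFun (comb_injective N h1) j).symm

end Fermat.Agent.ES.Coh
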