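import Fermat.Agent.ES.Coh.Defs
import Fermat.Agent.S16.Shimura.GroupLift

/-!
# ES / Coh: the lattice `Hom_{par,ell}(Γ₀(N), ℤ)` and a dual family of group elements
-/

set_option autoImplicit false
set_option linter.unusedSectionVars false

open UpperHalfPlane ModularForm CongruenceSubgroup Filter Topology Matrix.SpecialLinearGroup
open scoped MatrixGroups ModularForm Manifold

namespace Fermat.Agent.ES.Coh

open Fermat.Agent.S21 ModularCurve ModularCurve.Period Fermat.Agent.S16.Shimura

namespace Latt

variable (N : ℕ)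

/-- the relations: images of parabolic and of finite order elements. -/
def relSet : Set (Additive (Abelianization (Gamma0 N))) :=
  {x | ∃ γ : Gamma0 N, ((((γ : SL(2, ℤ)) : Matrix (Fin 2) (Fin 2) ℤ).trace ^ 2 = 4) ∨ γ ^ 12 = 1) ∧
    x = Additive.ofMul (Abelianization.of γ)}

/-- the universal quotient `H₁(X₀(N), ℤ)`. -/
abbrev HH : Type := Additive (Abelianization (Gamma0 N)) ⧸ AddSubgroup.closure (relSet N)

/-- the projection. -/
def proj : Additive (Gamma0 N) →+ HH N :=
  (QuotientAddGroup.mk' (AddSubgroup.closure (relSet N))).comp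
    (MonoidHom.toAdditive (Abelianization.of (G := Gamma0 N)))

theorem proj_surjective : Function.Surjective (proj N) := by
  intro x
  obtain ⟨y, rfl⟩ := QuotientAddGroup.mk'_surjective _ x
  obtain ⟨γ, hγ⟩ := QuotientGroup.mk'_surjective (commutator (Gamma0 N)) y.toMul
  exact ⟨Additive.ofMul γ, by
    show QuotientAddGroup.mk' _ (Additive.ofMul (Abelianization.of γ)) = _
    congr 1⟩

theorem isParEll_comp_proj {K : Type} [AddCommGroup K] (f : HH N →+ K) :
    IsParEll N (f.comp (proj N)) := by
  have key : ∀ γ : Gamma0 N,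
      ((((γ : SL(2, ℤ)) : Matrix (Fin 2) (Fin 2) ℤ).trace ^ 2 = 4) ∨ γ ^ 12 = 1) →
      proj N (Additive.ofMul γ) = 0 := by
    intro γ hγ
    show QuotientAddGroup.mk' _ (Additive.ofMul (Abelianization.of γ)) = 0
    rw [QuotientAddGroup.mk'_apply, QuotientAddGroup.eq_zero_iff]
    exact AddSubgroup.subset_closure ⟨γ, hγ, rfl⟩
  exact ⟨fun γ hγ => by rw [AddMonoidHom.comp_apply, key γ (Or.inl hγ), map_zero],
    fun γ hγ => by rw [AddMonoidHom.comp_apply, key γ (Or.inr hγ), map_zero]⟩

/-- descend an `IsParEll` homomorphism. -/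
def desc {K : Type} [AddCommGroup K] (φ : Additive (Gamma0 N) →+ K) (hφ : IsParEll N φ) :
    HH N →+ K :=
  QuotientAddGroup.lift _
    (MonoidHom.toAdditiveLeft (Abelianization.lift (AddMonoidHom.toMultiplicativeRight φ)))
    (by
      rw [AddSubgroup.closure_le]
      rintro x ⟨γ, hγ, rfl⟩
      show φ (Additive.ofMul γ) = 0
      rcases hγ with hγ | hγ
      · exact hφ.1 γ hγ
      · exact hφ.2 γ hγ)

theorem desc_comp_proj {K : Type} [AddCommGroup K] (φ : Additive (Gamma0 N) →+ K)
    (hφ : IsParEll N φ) : (desc N φ hφ).comp (proj N) = φ := by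
  ext γ
  rfl

instance [NeZero N] : AddGroup.FG (HH N) := by
  have h1 : Group.FG (Gamma0 N) := inferInstance
  have h2 : AddGroup.FG (Additive (Gamma0 N)) := GroupFG.iff_add_fg.1 h1
  exact AddGroup.fg_of_surjective (proj_surjective N)

end Latt

open Latt in
/-- **Structure of the lattice.**  There are `ℤ`-valued characters `lam i` killing parabolic and
elliptic elements and group elements `gam j` with `lam i (gam j) = δ_{ij}` such that every
`IsParEll` character with values in a torsion free group is `∑ i, lam i (·) • φ (gam i)`. -/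
theorem exists_dual_family (N : ℕ) [NeZero N] :
    ∃ (r : ℕ) (lam : Fin r → Additive (Gamma0 N) →+ ℤ) (gam : Fin r → Gamma0 N),
      (∀ i, IsParEll N (lam i)) ∧
      (∀ i j, lam i (Additive.ofMul (gam j)) = if i = j then 1 else 0) ∧
      ∀ (A : Type) [AddCommGroup A] [IsAddTorsionFree A] (φ : Additive (Gamma0 N) →+ A),
        IsParEll N φ → ∀ g, φ g = ∑ i, lam i g • φ (Additive.ofMul (gam i)) := by
  classical
  obtain ⟨r, ι, _, p, hp, e, ⟨E⟩⟩ := AddCommGroup.equiv_free_prod_directSum_zmod (HH N)
  have : ∀ i, NeZero (p i ^ e i) := fun i => ⟨pow_ne_zero _ (hp i).ne_zero⟩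
  have hF : Finite (DirectSum ι fun i => ZMod (p i ^ e i)) :=
    Finite.of_equiv _ (DirectSum.addEquivProd (fun i => ZMod (p i ^ e i))).symm.toEquiv
  choose gam hgam using fun j : Fin r =>
    proj_surjective N (E.symm (Finsupp.single j 1, 0))
  set co : Fin r → HH N →+ ℤ := fun i =>
    ((Finsupp.applyAddHom i).comp (AddMonoidHom.fst _ _)).comp E.toAddMonoidHom with hco
  refine ⟨r, fun i => (co i).comp (proj N), fun j => (gam j).toMul,
    fun i => isParEll_comp_proj N _, fun i j => ?_, ?_⟩
  · rw [ofMul_toMul, AddMonoidHom.comp_apply, hgam]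
    simp [hco, Finsupp.single_apply, eq_comm]
  · intro A _ _ φ hφ g
    set ψ := desc N φ hφ with hψ
    have h1 : ∀ g, φ g = ψ (proj N g) := fun g =>
      (DFunLike.congr_fun (desc_comp_proj N φ hφ) g).symm
    simp only [ofMul_toMul, h1, hgam, AddMonoidHom.comp_apply]
    generalize proj N g = x
    obtain ⟨⟨v, t⟩, rfl⟩ := E.symm.surjective x
    have h2 : ψ (E.symm (0, t)) = 0 := by
      have h3 : Nat.card (DirectSum ι fun i => ZMod (p i ^ e i)) • t = 0 := card_nsmul_eq_zero'
      have h4 : Nat.card (DirectSum ι fun i => ZMod (p i ^ e i)) • ψ (E.symm (0, t)) = 0 := by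
        rw [← map_nsmul, ← map_nsmul, Prod.smul_mk, h3, smul_zero]
        exact (congrArg ψ (map_zero E.symm)).trans (map_zero ψ)
      exact (nsmul_eq_zero_iff_right Nat.card_pos.ne').1 h4
    have h5 : ((v, t) : (Fin r →₀ ℤ) × DirectSum ι fun i => ZMod (p i ^ e i))
        = (∑ i, v i • ((Finsupp.single i 1, 0) :
            (Fin r →₀ ℤ) × DirectSum ι fun i => ZMod (p i ^ e i))) + (0, t) := by
      refine Prod.ext ?_ ?_
      · simp only [Prod.fst_add, Prod.fst_sum, Prod.smul_fst, add_zero]
        ext j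
        simp
      · simp [Prod.snd_sum]
    have h6 : ∀ i, co i (E.symm (v, t)) = v i := fun i => by simp [hco]
    simp only [h6]
    conv_lhs => rw [h5, map_add, map_add, h2, add_zero, map_sum, map_sum]
    refine Finset.sum_congr rfl fun i _ => ?_
    rw [map_zsmul, map_zsmul]

end Fermat.Agent.ES.Coh
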