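import Fermat.Agent.ES.Coh.Eigen

/-!
# ES / Coh: main results

* `exists_eigen_coords`, `exists_eigen_hom`, `exists_eigen_tensor`: the eigensystem of a normalized
  eigenform, reduced along `φ : ℤ̄ → k`, occurs in `Hom_{par,ell}(Γ₀(N), k)`.
* `exists_eigen_coords_of_ringHom`, `exists_eigen_hom_of_ringHom`: every ring homomorphism from the
  Hecke algebra to a field occurs.
-/

set_option autoImplicit false
set_option linter.unusedSectionVars false

open UpperHalfPlane ModularForm CongruenceSubgroup Filter Topology Matrix.SpecialLinearGroup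
open scoped MatrixGroups ModularForm Manifold TensorProduct

namespace Fermat.Agent.ES.Coh

open Fermat.Agent.S21 ModularCurve ModularCurve.Period Fermat.Agent.S16.Shimura
open ModularFormClass

variable (N : ℕ) [NeZero N]

theorem IsNormalizedEigenform.ne_zero' {g : CuspForm (Gamma0 N) 2}
    (hg : g.IsNormalizedEigenform) : g ≠ 0 := by
  rintro rfl
  have h1 := hg.qCoeff_one
  have h2 : qCoeff (⇑(0 : CuspForm (Gamma0 N) 2)) 1 = 0 :=
    (Fermat.Agent.S49.qCoeffLin N 2 1).map_zero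
  rw [h2] at h1
  exact zero_ne_one h1

/-- Hecke eigenvalues of normalized eigenforms are algebraic integers. -/
theorem isIntegral_qCoeff {g : CuspForm (Gamma0 N) 2} (hg : g.IsNormalizedEigenform)
    {ℓ : ℕ} (hℓ : ℓ.Prime) (hℓN : ¬ ℓ ∣ N) : IsIntegral ℤ (qCoeff g ℓ) := by
  have : Fact ℓ.Prime := ⟨hℓ⟩
  refine isIntegral_of_eigenvalue (heckeMat N ℓ hℓN).transpose (perVec N g)
    (perVec_ne_zero N (IsNormalizedEigenform.ne_zero' N hg)) _ fun j => ?_
  rw [← perVec_eigen N ℓ hℓN g _ (heckeTLin_eq_smul hg _ hℓN) j]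
  exact Finset.sum_congr rfl fun i _ => by rw [Matrix.transpose_apply, mul_comm]

theorem map_int_sub_ite {R K : Type} [CommRing R] [CommRing K] (ψ : R →+* K) (n : ℤ) (a : R)
    (P : Prop) [Decidable P] :
    ψ ((n : R) - if P then a else 0) = (n : K) - if P then ψ a else 0 := by
  split_ifs <;> simp

theorem sum_sub_ite_mul {r : ℕ} {K : Type} [CommRing K] (m c : Fin r → K) (a : K) (j : Fin r) :
    ∑ i, (m i - if i = j then a else 0) * c i = ∑ i, c i * m i - a * c j := by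
  simp only [sub_mul, Finset.sum_sub_distrib, ite_mul, zero_mul, Finset.sum_ite_eq',
    Finset.mem_univ, if_true]
  congr 1
  exact Finset.sum_congr rfl fun i _ => mul_comm _ _

/-- **Coordinates form.** -/
theorem exists_eigen_coords {g : CuspForm (Gamma0 N) 2} (hg : g.IsNormalizedEigenform)
    {k : Type} [Field k] (φ : integralClosure ℤ ℂ →+* k) :
    ∃ c' : Fin (rk N) → k, c' ≠ 0 ∧
      ∀ (ℓ : ℕ) [Fact ℓ.Prime] (hℓN : ¬ ℓ ∣ N) (a : integralClosure ℤ ℂ),
        (a : ℂ) = qCoeff g ℓ →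
        ∀ j, ∑ i, c' i * (heckeMat N ℓ hℓN i j : k) = φ a * c' j := by
  classical
  set J := {ℓ : ℕ // ℓ.Prime ∧ ¬ ℓ ∣ N} × Fin (rk N)
  set av : {ℓ : ℕ // ℓ.Prime ∧ ¬ ℓ ∣ N} → integralClosure ℤ ℂ :=
    fun ℓ => ⟨qCoeff g ℓ.1, isIntegral_qCoeff N hg ℓ.2.1 ℓ.2.2⟩ with hav
  set ρ : J → Fin (rk N) → integralClosure ℤ ℂ := fun x i =>
    ((@heckeMat N _ x.1.1 ⟨x.1.2.1⟩ x.1.2.2 i x.2 : ℤ) : integralClosure ℤ ℂ)
      - if i = x.2 then av x.1 else 0 with hρ
  obtain ⟨c', hc', h⟩ := exists_common_zero_of_ringHom (algebraMap (integralClosure ℤ ℂ) ℂ)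
    Subtype.val_injective φ ρ (perVec N g)
    (perVec_ne_zero N (IsNormalizedEigenform.ne_zero' N hg)) (by
      rintro ⟨ℓ, j⟩
      have : Fact ℓ.1.Prime := ⟨ℓ.2.1⟩
      have h1 := perVec_eigen N ℓ.1 ℓ.2.2 g _ (heckeTLin_eq_smul hg _ ℓ.2.2) j
      simp only [hρ, map_int_sub_ite]
      rw [sum_sub_ite_mul, sub_eq_zero]
      exact h1)
  refine ⟨c', hc', fun ℓ _ hℓN a ha j => ?_⟩
  have h1 := h (⟨ℓ, Fact.out, hℓN⟩, j)
  simp only [hρ, map_int_sub_ite] at h1
  rw [sum_sub_ite_mul, sub_eq_zero] at h1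
  have h2 : av ⟨ℓ, Fact.out, hℓN⟩ = a := Subtype.ext ha.symm
  rw [h2] at h1
  exact h1

/-- **Character form.**  The reduction along `φ` of the eigensystem of a normalized eigenform
occurs in `Hom_{par,ell}(Γ₀(N), k)`. -/
theorem exists_eigen_hom {g : CuspForm (Gamma0 N) 2} (hg : g.IsNormalizedEigenform)
    {k : Type} [Field k] (φ : integralClosure ℤ ℂ →+* k) :
    ∃ ψ : Additive (Gamma0 N) →+ k, ψ ≠ 0 ∧ IsParEll N ψ ∧
      ∀ (ℓ : ℕ) [Fact ℓ.Prime] (hℓN : ¬ ℓ ∣ N) (a : integralClosure ℤ ℂ),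
        (a : ℂ) = qCoeff g ℓ → heckeHom N ℓ hℓN k ψ = φ a • ψ := by
  obtain ⟨c', hc', h⟩ := exists_eigen_coords N hg φ
  refine ⟨comb N k c', ?_, isParEll_comb N c', fun ℓ _ hℓN a ha => ?_⟩
  · intro h0
    apply hc'
    apply comb_injective N
    rw [h0]
    refine AddMonoidHom.ext fun g => ?_
    simp [comb_apply]
  · rw [heckeHom_comb, ← comb_smul]
    congr 1
    funext j
    exact h ℓ hℓN a ha j

end Fermat.Agent.ES.Coh
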