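import Fermat.Agent.ES.Coh.RingHom
import Fermat.Agent.ES.D.Defs

/-!
# ES / Coh: the support property of part (D) on the cohomology side

`supp_homPar`: a noncommutative polynomial in the `T_ℓ` killing `Hom_{par,ell}(Γ₀(N), ℤ/m)` is `m`
times an integral operator on `S₂(Γ₀(N))`.
-/

set_option autoImplicit false
set_option linter.unusedSectionVars false

open UpperHalfPlane ModularForm CongruenceSubgroup Filter Topology Matrix.SpecialLinearGroup
open scoped MatrixGroups ModularForm Manifold TensorProduct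

namespace Fermat.Agent.ES.Coh

open Fermat.Agent.S21 ModularCurve ModularCurve.Period Fermat.Agent.S16.Shimura
open ModularFormClass CuspForm Matrix
open Fermat.Agent.ES.D (GoodPrime heckeS2)

variable (N : ℕ) [NeZero N]

/-- `T_ℓ` on `Hom_{par,ell}(Γ₀(N), A)` indexed by good primes. -/
noncomputable def heckeEndZ (A : Type) [AddCommGroup A] (ℓ : GoodPrime N) :
    Module.End ℤ (homPar N ℤ A) :=
  haveI : Fact ℓ.1.Prime := ⟨ℓ.2.1⟩
  heckePar N ℓ.1 ℓ.2.2 ℤ A

/-- the transposed integral Hecke matrices, acting on column vectors. -/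
noncomputable def heckeMatT (ℓ : GoodPrime N) : Matrix (Fin (rk N)) (Fin (rk N)) ℤ :=
  haveI : Fact ℓ.1.Prime := ⟨ℓ.2.1⟩
  (heckeMat N ℓ.1 ℓ.2.2)ᵀ

/-- the matrix representation of the free algebra. -/
noncomputable def matRep : FreeAlgebra ℤ (GoodPrime N) →ₐ[ℤ] Matrix (Fin (rk N)) (Fin (rk N)) ℤ :=
  FreeAlgebra.lift ℤ (heckeMatT N)

/-- `comb` as an element of `homPar`. -/
noncomputable def combPar (K : Type) [CommRing K] (c : Fin (rk N) → K) : homPar N ℤ K :=
  ⟨comb N K c, isParEll_comb N c⟩

theorem combPar_add {K : Type} [CommRing K] (c c' : Fin (rk N) → K) :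
    combPar N K (c + c') = combPar N K c + combPar N K c' := by
  apply Subtype.ext
  refine AddMonoidHom.ext fun g => ?_
  simp [combPar, comb_apply, add_mul, Finset.sum_add_distrib]

theorem combPar_zsmul {K : Type} [CommRing K] (n : ℤ) (c : Fin (rk N) → K) :
    combPar N K (n • c) = n • combPar N K c := by
  apply Subtype.ext
  refine AddMonoidHom.ext fun g => ?_
  simp [combPar, comb_apply, Finset.mul_sum, mul_assoc]

theorem map_algebraMap_mulVec {r : ℕ} {K : Type} [CommRing K] (n : ℤ) (c : Fin r → K) :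
    ((algebraMap ℤ (Matrix (Fin r) (Fin r) ℤ) n).map (Int.cast : ℤ → K)) *ᵥ c = n • c := by
  have : (algebraMap ℤ (Matrix (Fin r) (Fin r) ℤ) n).map (Int.cast : ℤ → K)
      = (n : K) • (1 : Matrix (Fin r) (Fin r) K) := by
    ext i j
    simp only [Matrix.algebraMap_matrix_apply, Matrix.map_apply, Matrix.smul_apply,
      Matrix.one_apply]
    split_ifs <;> simp
  rw [this, Matrix.smul_mulVec, Matrix.one_mulVec]
  funext i
  simp

theorem heckeEndZ_combPar {K : Type} [CommRing K] (ℓ : GoodPrime N) (c : Fin (rk N) → K) :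
    heckeEndZ N K ℓ (combPar N K c)
      = combPar N K (((heckeMatT N ℓ).map (Int.cast : ℤ → K)) *ᵥ c) := by
  have : Fact ℓ.1.Prime := ⟨ℓ.2.1⟩
  apply Subtype.ext
  show heckeHom N ℓ.1 ℓ.2.2 K (comb N K c) = comb N K _
  rw [heckeHom_comb]
  congr 1
  funext j
  simp only [heckeMatT, Matrix.mulVec, dotProduct, Matrix.map_apply, Matrix.transpose_apply]
  exact Finset.sum_congr rfl fun i _ => mul_comm _ _

theorem lift_heckeEndZ_combPar {K : Type} [CommRing K] (P : FreeAlgebra ℤ (GoodPrime N))
    (c : Fin (rk N) → K) :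
    FreeAlgebra.lift ℤ (heckeEndZ N K) P (combPar N K c)
      = combPar N K (((matRep N P).map (Int.cast : ℤ → K)) *ᵥ c) := by
  induction P using FreeAlgebra.induction generalizing c with
  | grade0 n =>
    rw [AlgHom.commutes, AlgHom.commutes, Module.algebraMap_end_apply, ← combPar_zsmul,
      map_algebraMap_mulVec]
  | grade1 ℓ =>
    rw [FreeAlgebra.lift_ι_apply, matRep, FreeAlgebra.lift_ι_apply, heckeEndZ_combPar]
  | mul a b ha hb =>
    rw [map_mul, map_mul, Module.End.mul_apply, hb, ha, Matrix.mulVec_mulVec]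
    congr 2
    exact (Matrix.map_mul (f := Int.castRingHom K)).symm
  | add a b ha hb =>
    rw [map_add, map_add, LinearMap.add_apply, ha, hb, ← combPar_add, ← Matrix.add_mulVec]
    congr 2
    exact (Matrix.map_add _ Int.cast_add _ _).symm

/-- compatible pairs (operator on `S₂`, integral matrix). -/
noncomputable def compat :
    Subalgebra ℤ (Module.End ℂ (CuspForm (Gamma0 N) 2) × Matrix (Fin (rk N)) (Fin (rk N)) ℤ) where
  carrier := {x | ∀ f, perVec N (x.1 f) = (x.2.map (Int.cast : ℤ → ℂ)) *ᵥ perVec N f}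
  mul_mem' := by
    intro x y hx hy f
    rw [Prod.fst_mul, Prod.snd_mul, Module.End.mul_apply, hx, hy, Matrix.mulVec_mulVec]
    congr 1
    exact (Matrix.map_mul (f := Int.castRingHom ℂ)).symm
  add_mem' := by
    intro x y hx hy f
    have hadd : ∀ f g, perVec N (f + g) = perVec N f + perVec N g := fun f g => by
      funext i; simp [perVec]
    rw [Prod.fst_add, Prod.snd_add, LinearMap.add_apply, hadd, hx, hy, ← Matrix.add_mulVec]
    congr 1
    exact (Matrix.map_add _ Int.cast_add _ _).symm
  algebraMap_mem' := by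
    intro n f
    rw [Prod.algebraMap_apply]
    simp only
    rw [map_algebraMap_mulVec, Module.algebraMap_end_apply]
    funext i
    simp [perVec]

theorem mem_compat {x : Module.End ℂ (CuspForm (Gamma0 N) 2) × Matrix (Fin (rk N)) (Fin (rk N)) ℤ} :
    x ∈ compat N ↔ ∀ f, perVec N (x.1 f) = (x.2.map (Int.cast : ℤ → ℂ)) *ᵥ perVec N f := Iff.rfl

theorem perVec_injective : Function.Injective (perVec N) := by
  intro f g h
  apply perC_injective N
  rw [← comb_perVec, ← comb_perVec, h]

theorem fst_eq_zero_of_mem_compat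
    {x : Module.End ℂ (CuspForm (Gamma0 N) 2) × Matrix (Fin (rk N)) (Fin (rk N)) ℤ}
    (hx : x ∈ compat N) (h : x.2 = 0) : x.1 = 0 := by
  ext1 f
  apply perVec_injective N
  rw [hx f, h]
  have : perVec N ((0 : Module.End ℂ (CuspForm (Gamma0 N) 2)) f) = 0 := by
    funext i; simp [perVec]
  rw [this]
  simp

theorem heckePair_mem (ℓ : GoodPrime N) : (heckeS2 N ℓ, heckeMatT N ℓ) ∈ compat N := by
  have : Fact ℓ.1.Prime := ⟨ℓ.2.1⟩
  intro f
  funext j
  have h := perVec_heckeTLin N ℓ.1 ℓ.2.2 f j
  simp only [heckeMatT, Matrix.mulVec, dotProduct, Matrix.map_apply, Matrix.transpose_apply]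
  refine Eq.trans h ?_
  exact Finset.sum_congr rfl fun i _ => mul_comm _ _

theorem liftPair_mem (P : FreeAlgebra ℤ (GoodPrime N)) :
    (FreeAlgebra.lift ℤ (heckeS2 N) P, matRep N P) ∈ compat N := by
  induction P using FreeAlgebra.induction with
  | grade0 n =>
    rw [AlgHom.commutes, AlgHom.commutes]
    have := (compat N).algebraMap_mem n
    rwa [Prod.algebraMap_apply] at this
  | grade1 ℓ =>
    rw [FreeAlgebra.lift_ι_apply, matRep, FreeAlgebra.lift_ι_apply]
    exact heckePair_mem N ℓ
  | mul a b ha hb =>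
    rw [map_mul, map_mul]
    have := (compat N).mul_mem ha hb
    rwa [Prod.mk_mul_mk] at this
  | add a b ha hb =>
    rw [map_add, map_add]
    have := (compat N).add_mem ha hb
    rwa [Prod.mk_add_mk] at this

/-- an operator compatible with an integral matrix is integral. -/
theorem isIntegral_of_mem_compat
    {x : Module.End ℂ (CuspForm (Gamma0 N) 2) × Matrix (Fin (rk N)) (Fin (rk N)) ℤ}
    (hx : x ∈ compat N) : IsIntegral ℤ x.1 := by
  refine ⟨x.2.charpoly, x.2.charpoly_monic, ?_⟩
  set y : compat N := Polynomial.aeval (⟨x, hx⟩ : compat N) x.2.charpoly with hy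
  have hy1 : y.1.1 = Polynomial.aeval x.1 x.2.charpoly := by
    have := Polynomial.aeval_algHom_apply
      ((AlgHom.fst ℤ _ _).comp (compat N).val) (⟨x, hx⟩ : compat N) x.2.charpoly
    exact this.symm
  have hy2 : y.1.2 = Polynomial.aeval x.2 x.2.charpoly := by
    have := Polynomial.aeval_algHom_apply
      ((AlgHom.snd ℤ _ _).comp (compat N).val) (⟨x, hx⟩ : compat N) x.2.charpoly
    exact this.symm
  rw [Matrix.aeval_self_charpoly] at hy2
  have := fst_eq_zero_of_mem_compat N y.2 hy2
  rw [hy1] at this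
  exact this

/-- **Support property on the cohomology side.** -/
theorem supp_homPar (m : ℕ) (P : FreeAlgebra ℤ (GoodPrime N))
    (hP : FreeAlgebra.lift ℤ (heckeEndZ N (ZMod m)) P = 0) :
    ∃ Q : Module.End ℂ (CuspForm (Gamma0 N) 2), IsIntegral ℤ Q ∧
      FreeAlgebra.lift ℤ (heckeS2 N) P = (m : ℤ) • Q := by
  classical
  -- the matrix of `P` is divisible by `m`
  have hdvd : ∀ i j, (m : ℤ) ∣ matRep N P i j := by
    intro i j
    have h1 := lift_heckeEndZ_combPar N P (Pi.single j (1 : ZMod m))
    rw [hP, LinearMap.zero_apply] at h1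
    have h2 : comb N (ZMod m) (((matRep N P).map (Int.cast : ℤ → ZMod m)) *ᵥ Pi.single j 1) = 0 :=
      (congrArg Subtype.val h1).symm
    have h3 := comb_gam N (((matRep N P).map (Int.cast : ℤ → ZMod m)) *ᵥ Pi.single j 1) i
    rw [h2] at h3
    simp only [AddMonoidHom.zero_apply, Matrix.mulVec_single, Matrix.col_apply, Matrix.map_apply,
      MulOpposite.op_one, one_smul] at h3
    exact (CharP.intCast_eq_zero_iff (ZMod m) m _).1 h3.symm
  choose M' hM' using hdvd
  have hM : matRep N P = (m : ℤ) • Matrix.of M' := by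
    ext i j
    rw [hM' i j]
    simp
  rcases Nat.eq_zero_or_pos m with rfl | hm
  · refine ⟨0, isIntegral_zero, ?_⟩
    rw [smul_zero]
    exact fst_eq_zero_of_mem_compat N (liftPair_mem N P) (by simpa using hM)
  · have hm' : (m : ℂ) ≠ 0 := by exact_mod_cast hm.ne'
    set Q : Module.End ℂ (CuspForm (Gamma0 N) 2) :=
      (m : ℂ)⁻¹ • FreeAlgebra.lift ℤ (heckeS2 N) P with hQ
    have hQmem : (Q, Matrix.of M') ∈ compat N := by
      intro f
      have h1 := liftPair_mem N P f
      have hsm : ∀ (c : ℂ) f, perVec N (c • f) = c • perVec N f := fun c f => by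
        funext i; simp [perVec]
      show perVec N (Q f) = _
      rw [hQ, LinearMap.smul_apply, hsm, h1]
      simp only [hM]
      have : (((m : ℤ) • Matrix.of M').map (Int.cast : ℤ → ℂ))
          = (m : ℂ) • ((Matrix.of M').map (Int.cast : ℤ → ℂ)) := by
        ext i j
        simp
      rw [this, Matrix.smul_mulVec, smul_smul, inv_mul_cancel₀ hm', one_smul]
    refine ⟨Q, isIntegral_of_mem_compat N hQmem, ?_⟩
    rw [hQ]
    ext1 f
    simp only [LinearMap.smul_apply]
    rw [← Int.cast_smul_eq_zsmul ℂ, smul_smul]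
    simp [hm']

end Fermat.Agent.ES.Coh
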