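import Fermat.Agent.ES.Coh.Count
import Fermat.Agent.ES.Coh.Supp
import Fermat.Agent.S20
import Fermat.Agent.S21

/-!
# ES / Coh: the rank of `Hom_{par,ell}(Γ₀(N), ℤ)`, lifting of characters mod `n`, cosupport

* `rk_eq : rk N = 2 * finrank ℂ S₂(Γ₀(N))`                                   (S21)
* `exists_comb_zmod` : every par-ell character `Γ₀(N) → ℤ/n` is `comb N (ZMod n) c`  (Coh-Count + S20)
* `exists_lift_zmod` : ... hence the reduction of `comb N ℤ c`
* `snd_eq_zero_of_mem_compat`, `matRep_eq_zero` : `P(T) = 0` on `S₂` implies `matRep P = 0`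
-/

set_option autoImplicit false
set_option linter.unusedSectionVars false

open UpperHalfPlane ModularForm CongruenceSubgroup Filter Topology Matrix.SpecialLinearGroup
open scoped MatrixGroups ModularForm Manifold Matrix

namespace Fermat.Agent.ES.Coh

open Fermat.Agent.S21 ModularCurve ModularCurve.Period Fermat.Agent.S16.Shimura
open Fermat.Agent.S20 (orbitCount)
open Fermat.Agent.ES.D

variable (N : ℕ) [NeZero N]

theorem finite_cuspForm_two : Module.Finite ℂ (CuspForm (Gamma0 N) 2) := by
  have := finite_MF_two N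
  exact Module.Finite.of_injective (cuspIncl N) (cuspIncl_injective N)

/-- `comb` as a linear map. -/
noncomputable def combLin : (Fin (rk N) → ℂ) →ₗ[ℂ] (Additive (Gamma0 N) →+ ℂ) where
  toFun := comb N ℂ
  map_add' c c' := by
    refine AddMonoidHom.ext fun g => ?_
    simp [comb_apply, add_mul, Finset.sum_add_distrib]
  map_smul' a c := comb_smul N a c

theorem range_combLin : LinearMap.range (combLin N) = parabolicHoms ℂ (Gamma0 N) ℂ := by
  ext φ
  rw [mem_parabolicHoms_iff]
  constructor
  · rintro ⟨c, rfl⟩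
    exact (isParEll_comb N c).1
  · intro h
    exact ⟨_, (eq_comb N φ (IsParEll.of_parabolic N h)).symm⟩

/-- **the rank of the lattice is `2 g`.** -/
theorem rk_eq : rk N = 2 * Module.finrank ℂ (CuspForm (Gamma0 N) 2) := by
  have := finite_cuspForm_two N
  have h1 := LinearMap.finrank_range_of_inj (f := combLin N) (comb_injective N)
  have h2 := LinearMap.finrank_range_of_inj (Fermat.Agent.S21.result N).1
  rw [range_combLin] at h1
  rw [(Fermat.Agent.S21.result N).2, h1, Module.finrank_prod, Module.finrank_fin_fun] at h2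
  omega

/-- Euler characteristic. -/
theorem rk_add_orbitCount :
    rk N + orbitCount (Gamma0 N) ModularGroup.S
      + orbitCount (Gamma0 N) (ModularGroup.S * ModularGroup.T)
      + orbitCount (Gamma0 N) ModularGroup.T = Nat.card (X (Gamma0 N)) + 2 := by
  have h0 := Fermat.Agent.S20.result N
  have hQ := Fermat.Agent.S20.card_X N
  have hoS := Fermat.Agent.S20.orbitCount_S N
  have hoST := Fermat.Agent.S20.orbitCount_ST N
  have hoT := Fermat.Agent.S20.orbitCount_T N
  rw [Nat.card_eq_fintype_card, hQ, rk_eq, hoT]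
  unfold ModularCurve.genusFormula at h0
  have hoS' : (2 * orbitCount (Gamma0 N) ModularGroup.S : ℚ) = dedekindPsi N + nuTwo N := by
    exact_mod_cast hoS
  have hoST' : (3 * orbitCount (Gamma0 N) (ModularGroup.S * ModularGroup.T) : ℚ)
      = dedekindPsi N + 2 * nuThree N := by exact_mod_cast hoST
  have : ((2 * Module.finrank ℂ (CuspForm (Gamma0 N) 2) + orbitCount (Gamma0 N) ModularGroup.S
      + orbitCount (Gamma0 N) (ModularGroup.S * ModularGroup.T) + cuspCount N : ℕ) : ℚ)
      = ((dedekindPsi N + 2 : ℕ) : ℚ) := by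
    push_cast
    linarith
  exact_mod_cast this

/-- **every par-ell character mod `n` is a combination of the `lam i`.** -/
theorem exists_comb_zmod (n : ℕ) [NeZero n] (φ : Additive (Gamma0 N) →+ ZMod n)
    (hφ : IsParEll N φ) : ∃ c : Fin (rk N) → ZMod n, φ = comb N (ZMod n) c := by
  obtain ⟨hfin, hle⟩ := card_isParEll_mul_le N n
  have hn : 0 < n := Nat.pos_of_ne_zero (NeZero.ne n)
  let F : (Fin (rk N) → ZMod n) → {φ : Additive (Gamma0 N) →+ ZMod n // IsParEll N φ} :=
    fun c => ⟨comb N (ZMod n) c, isParEll_comb N c⟩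
  have hF : Function.Injective F := fun c c' h => comb_injective N (congrArg Subtype.val h)
  have hcard : Nat.card {φ : Additive (Gamma0 N) →+ ZMod n // IsParEll N φ}
      ≤ Nat.card (Fin (rk N) → ZMod n) := by
    rw [Nat.card_fun, Nat.card_zmod, Nat.card_eq_fintype_card (α := Fin (rk N)), Fintype.card_fin]
    have h2 : 2 * Nat.card (X (Gamma0 N)) + 2 = rk N + (Nat.card (X (Gamma0 N))
        + orbitCount (Gamma0 N) ModularGroup.S
        + orbitCount (Gamma0 N) (ModularGroup.S * ModularGroup.T)
        + orbitCount (Gamma0 N) ModularGroup.T) := by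
      have := rk_add_orbitCount N
      omega
    rw [h2, pow_add n (rk N)] at hle
    exact Nat.le_of_mul_le_mul_right hle (pow_pos hn _)
  obtain ⟨c, hc⟩ := (hF.bijective_of_nat_card_le hcard).2 ⟨φ, hφ⟩
  exact ⟨c, (congrArg Subtype.val hc).symm⟩

/-- **lifting**: every par-ell character mod `n` is the reduction of an integral one. -/
theorem exists_lift_zmod (n : ℕ) [NeZero n] (φ : Additive (Gamma0 N) →+ ZMod n)
    (hφ : IsParEll N φ) : ∃ c : Fin (rk N) → ℤ, ∀ g, φ g = ((comb N ℤ c g : ℤ) : ZMod n) := by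
  obtain ⟨c, rfl⟩ := exists_comb_zmod N n φ hφ
  refine ⟨fun i => ((c i).val : ℤ), fun g => ?_⟩
  rw [comb_apply, comb_apply]
  push_cast
  refine Finset.sum_congr rfl fun i _ => ?_
  rw [ZMod.natCast_zmod_val]

/-! ### real parts of periods -/

open MaxPrinciple in
/-- a cusp form all of whose periods are purely imaginary vanishes. -/
theorem eq_zero_of_re_perHom (u : MF (Gamma0 N) 2) (hu : (u : ℍ → ℂ) ∈ CF (Gamma0 N) 2)
    (h : ∀ γ : Gamma0 N, (perHom N u (Additive.ofMul γ)).re = 0) : u = 0 := by
  obtain ⟨U, hU⟩ := exists_prim N u.2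
  have hN : (0 : ℝ) < N := by exact_mod_cast Nat.pos_of_ne_zero (NeZero.ne N)
  have hUc := prim_cusp_behaviour N hu hU
  obtain ⟨c, hc⟩ : ∃ c : ℂ, ∀ z, U z = c := by
    refine const_of_re_invariant (Γ := Gamma0 N) hU.mdiff ?_ hN (fun δ z => (hUc δ).2 z)
      (fun δ => (hUc δ).1)
    intro γ hγ z
    have h1 := perHom_apply N u hU ⟨γ, hγ⟩ z
    have h2 := h ⟨γ, hγ⟩
    rw [h1, Complex.sub_re] at h2
    linarith
  apply Subtype.ext
  funext z
  exact eq_zero_of_isPrim_const hU hc z

/-- the real parts of the period vector. -/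
noncomputable def rePer : CuspForm (Gamma0 N) 2 →ₗ[ℝ] (Fin (rk N) → ℝ) where
  toFun f := fun i => (perVec N f i).re
  map_add' f g := by
    funext i
    simp [perVec]
  map_smul' a f := by
    funext i
    have h1 : a • f = (a : ℂ) • f := rfl
    have h2 : perVec N ((a : ℂ) • f) i = (a : ℂ) * perVec N f i := by
      unfold perVec
      rw [map_smul]
      rfl
    show (perVec N (a • f) i).re = a * (perVec N f i).re
    rw [h1, h2, Complex.re_ofReal_mul]

theorem rePer_injective : Function.Injective (rePer N) := by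
  rw [← LinearMap.ker_eq_bot, LinearMap.ker_eq_bot']
  intro f hf
  apply cuspIncl_injective N
  rw [map_zero]
  apply eq_zero_of_re_perHom N _ (cuspIncl_mem_CF N f)
  intro γ
  have h1 := expand N (perC N f) (isParEll_perC N f) (Additive.ofMul γ)
  have h2 : perHom N (cuspIncl N f) (Additive.ofMul γ) = perC N f (Additive.ofMul γ) := rfl
  rw [h2, h1, Complex.re_sum]
  refine Finset.sum_eq_zero fun i _ => ?_
  have h3 : (perC N f (Additive.ofMul (gam N i))).re = 0 := congrFun hf i
  rw [zsmul_eq_mul, ← Complex.ofReal_intCast, Complex.re_ofReal_mul, h3, mul_zero]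

theorem rePer_surjective : Function.Surjective (rePer N) := by
  have := finite_cuspForm_two N
  have : Module.Finite ℝ (CuspForm (Gamma0 N) 2) := Module.Finite.trans ℂ _
  refine (LinearMap.injective_iff_surjective_of_finrank_eq_finrank ?_).mp (rePer_injective N)
  rw [finrank_real_of_complex, Module.finrank_fin_fun, rk_eq]

/-- **cosupport**: an integral matrix compatible with the zero operator is zero. -/
theorem snd_eq_zero_of_mem_compat
    {x : Module.End ℂ (CuspForm (Gamma0 N) 2) × Matrix (Fin (rk N)) (Fin (rk N)) ℤ}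
    (hx : x ∈ compat N) (h : x.1 = 0) : x.2 = 0 := by
  have h1 : ∀ f, (x.2.map (Int.cast : ℤ → ℂ)) *ᵥ perVec N f = 0 := by
    intro f
    rw [← hx f, h]
    funext i
    simp [perVec]
  have h2 : ∀ y : Fin (rk N) → ℝ, (x.2.map (Int.cast : ℤ → ℝ)) *ᵥ y = 0 := by
    intro y
    obtain ⟨f, rfl⟩ := rePer_surjective N y
    funext i
    have h3 := congrArg Complex.re (congrFun (h1 f) i)
    simp only [Matrix.mulVec, dotProduct, Matrix.map_apply, Complex.re_sum, Pi.zero_apply,
      Complex.zero_re] at h3 ⊢
    rw [← h3]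
    refine Finset.sum_congr rfl fun j _ => ?_
    rw [← Complex.ofReal_intCast, Complex.re_ofReal_mul]
    rfl
  ext i j
  have h4 := congrFun (h2 (Pi.single j 1)) i
  rw [Matrix.mulVec_single_one] at h4
  have h5 : ((x.2 i j : ℤ) : ℝ) = 0 := h4
  exact_mod_cast h5

/-- **cosupport**: a polynomial in the Hecke operators killing `S₂(Γ₀(N))` kills the lattice. -/
theorem matRep_eq_zero (P : FreeAlgebra ℤ (GoodPrime N))
    (hP : FreeAlgebra.lift ℤ (heckeS2 N) P = 0) : matRep N P = 0 :=
  snd_eq_zero_of_mem_compat N (liftPair_mem N P) hP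

end Fermat.Agent.ES.Coh
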