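import Fermat.Agent.ES.Coh.Main

/-!
# ES / Coh: every ring homomorphism from the Hecke algebra to a field occurs in
`Hom_{par,ell}(Γ₀(N), K)`
-/

set_option autoImplicit false
set_option linter.unusedSectionVars false

open UpperHalfPlane ModularForm CongruenceSubgroup Filter Topology Matrix.SpecialLinearGroup
open scoped MatrixGroups ModularForm Manifold TensorProduct

namespace Fermat.Agent.ES.Coh

open Fermat.Agent.S21 ModularCurve ModularCurve.Period Fermat.Agent.S16.Shimura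
open ModularFormClass CuspForm

variable (N : ℕ) [NeZero N] (S : Set ℕ)

/-- the action of the (commutative) Hecke algebra on the dual of `S₂(Γ₀(N))`. -/
noncomputable def dualAct :
    heckeAlgebra N 2 S →+* Module.End ℤ (CuspForm (Gamma0 N) 2 →ₗ[ℂ] ℂ) where
  toFun t :=
    { toFun := fun e => e ∘ₗ t.1
      map_add' := fun e e' => LinearMap.add_comp _ _ _
      map_smul' := fun n e => LinearMap.smul_comp _ _ _ }
  map_one' := by ext e f; rfl
  map_mul' t t' := by
    ext e f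
    have : t * t' = t' * t := mul_comm _ _
    rw [this]
    rfl
  map_zero' := by ext e f; simp
  map_add' t t' := by
    ext e f
    simp

/-- the coordinate functionals `f ↦ perC f (gam i)`. -/
noncomputable def perFun (i : Fin (rk N)) : CuspForm (Gamma0 N) 2 →ₗ[ℂ] ℂ where
  toFun f := perVec N f i
  map_add' f g := by simp [perVec]
  map_smul' c f := by simp [perVec]

theorem perVec_heckeTLin (ℓ : ℕ) [Fact ℓ.Prime] (hℓN : ¬ ℓ ∣ N) (f : CuspForm (Gamma0 N) 2)
    (j : Fin (rk N)) :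
    perVec N (CuspForm.heckeTLin 2 Fact.out hℓN f) j
      = ∑ i, perVec N f i * (heckeMat N ℓ hℓN i j : ℂ) := by
  have h1 := heckeHom_comb N ℓ hℓN (perVec N f)
  rw [comb_perVec, heckeHom_perC, ← comb_perVec] at h1
  exact congrFun (comb_injective N h1) j

/-- **Every character of the Hecke algebra occurs** (coordinates form). -/
theorem exists_eigen_coords_of_ringHom {K : Type} [Field K] (χ : heckeAlgebra N 2 S →+* K) :
    ∃ c' : Fin (rk N) → K, c' ≠ 0 ∧
      ∀ (ℓ : ℕ) [Fact ℓ.Prime] (hℓN : ¬ ℓ ∣ N) (hℓS : ℓ ∉ S) (j : Fin (rk N)),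
        ∑ i, c' i * (heckeMat N ℓ hℓN i j : K) = χ (heckeAlgebra.T Fact.out hℓN hℓS) * c' j := by
  classical
  set J := {ℓ : ℕ // ℓ.Prime ∧ ¬ ℓ ∣ N ∧ ℓ ∉ S} × Fin (rk N)
  set ρ : J → Fin (rk N) → heckeAlgebra N 2 S := fun x i =>
    ((@heckeMat N _ x.1.1 ⟨x.1.2.1⟩ x.1.2.2.1 i x.2 : ℤ) : heckeAlgebra N 2 S)
      - if i = x.2 then heckeAlgebra.T x.1.2.1 x.1.2.2.1 x.1.2.2.2 else 0 with hρ
  have hdet : ∀ j : Fin (rk N) → J, (Matrix.of fun i => ρ (j i)).det = 0 := by
    intro j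
    let _ : Module (heckeAlgebra N 2 S) (CuspForm (Gamma0 N) 2 →ₗ[ℂ] ℂ) :=
      Module.compHom _ (dualAct N S)
    have hsm : ∀ (t : heckeAlgebra N 2 S) (e : CuspForm (Gamma0 N) 2 →ₗ[ℂ] ℂ),
        t • e = e ∘ₗ t.1 := fun _ _ => rfl
    have h0 := det_smul_eq_zero (Matrix.of fun i => ρ (j i)) (perFun N) (by
      intro i
      simp only [Matrix.of_apply]
      generalize j i = x
      obtain ⟨ℓ, j'⟩ := x
      have : Fact ℓ.1.Prime := ⟨ℓ.2.1⟩
      ext f
      have h1 := perVec_heckeTLin N ℓ.1 ℓ.2.2.1 f j'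
      have h3 : ∀ s, (ρ (ℓ, j') s • perFun N s) f
          = ((@heckeMat N _ ℓ.1 ⟨ℓ.2.1⟩ ℓ.2.2.1 s j' : ℤ) : ℂ) * perVec N f s
            - if s = j' then perVec N (CuspForm.heckeTLin 2 Fact.out ℓ.2.2.1 f) s else 0 := by
        intro s
        rw [hsm, LinearMap.comp_apply]
        simp only [hρ]
        split_ifs with hs
        · have h2 : ((((@heckeMat N _ ℓ.1 ⟨ℓ.2.1⟩ ℓ.2.2.1 s j' : ℤ) : heckeAlgebra N 2 S)
              - heckeAlgebra.T ℓ.2.1 ℓ.2.2.1 ℓ.2.2.2 : heckeAlgebra N 2 S) :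
              Module.End ℂ (CuspForm (Gamma0 N) 2)) f
              = ((@heckeMat N _ ℓ.1 ⟨ℓ.2.1⟩ ℓ.2.2.1 s j' : ℤ) : ℂ) • f
                - CuspForm.heckeTLin 2 Fact.out ℓ.2.2.1 f := by
            simp [Int.cast_smul_eq_zsmul]
          rw [h2, map_sub, map_smul, smul_eq_mul]
          rfl
        · have h2 : ((((@heckeMat N _ ℓ.1 ⟨ℓ.2.1⟩ ℓ.2.2.1 s j' : ℤ) : heckeAlgebra N 2 S)
              - 0 : heckeAlgebra N 2 S) : Module.End ℂ (CuspForm (Gamma0 N) 2)) f
              = ((@heckeMat N _ ℓ.1 ⟨ℓ.2.1⟩ ℓ.2.2.1 s j' : ℤ) : ℂ) • f := by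
            simp [Int.cast_smul_eq_zsmul]
          rw [h2, map_smul, smul_eq_mul, sub_zero]
          rfl
      rw [LinearMap.sum_apply]
      simp only [h3, Finset.sum_sub_distrib, Finset.sum_ite_eq', Finset.mem_univ, if_true,
        LinearMap.zero_apply]
      rw [h1, sub_eq_zero]
      exact Finset.sum_congr rfl fun s _ => mul_comm _ _)
    apply Subtype.ext
    ext f
    have hf : perC N ((Matrix.of fun i => ρ (j i)).det.1 f) = 0 := by
      rw [← comb_perVec]
      have : perVec N ((Matrix.of fun i => ρ (j i)).det.1 f) = 0 := by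
        funext s
        exact LinearMap.congr_fun (h0 s) f
      rw [this]
      refine AddMonoidHom.ext fun g => ?_
      simp [comb_apply]
    have := perC_injective N (hf.trans (map_zero _).symm)
    rw [this]
    rfl
  obtain ⟨c', hc', h⟩ := exists_common_zero_of_det_eq_zero (fun x i => χ (ρ x i)) (by
    intro j
    have : (Matrix.of fun i => fun s => χ (ρ (j i) s))
        = χ.mapMatrix (Matrix.of fun i => ρ (j i)) := by
      ext i s
      simp
    rw [this, ← RingHom.map_det, hdet, map_zero])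
  refine ⟨c', hc', fun ℓ _ hℓN hℓS j => ?_⟩
  have h1 := h (⟨ℓ, Fact.out, hℓN, hℓS⟩, j)
  simp only [hρ, map_int_sub_ite] at h1
  rw [sum_sub_ite_mul, sub_eq_zero] at h1
  exact h1

/-- **Every character of the Hecke algebra occurs** (character form). -/
theorem exists_eigen_hom_of_ringHom {K : Type} [Field K] (χ : heckeAlgebra N 2 S →+* K) :
    ∃ ψ : Additive (Gamma0 N) →+ K, ψ ≠ 0 ∧ IsParEll N ψ ∧
      ∀ (ℓ : ℕ) [Fact ℓ.Prime] (hℓN : ¬ ℓ ∣ N) (hℓS : ℓ ∉ S),
        heckeHom N ℓ hℓN K ψ = χ (heckeAlgebra.T Fact.out hℓN hℓS) • ψ := by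
  obtain ⟨c', hc', h⟩ := exists_eigen_coords_of_ringHom N S χ
  refine ⟨comb N K c', ?_, isParEll_comb N c', fun ℓ _ hℓN hℓS => ?_⟩
  · intro h0
    apply hc'
    apply comb_injective N
    rw [h0]
    refine AddMonoidHom.ext fun g => ?_
    simp [comb_apply]
  · rw [heckeHom_comb, ← comb_smul]
    congr 1
    funext j
    exact h ℓ hℓN hℓS j

end Fermat.Agent.ES.Coh
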